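/-
M59 / Sink B (architects helper15 + helper1; ruling #48, table #5259 row B0): THE CONCRETE FRAME,
LEVEL 2 (helper1).  Prefix `m59sb_`.

`q ∤ N'` an odd prime, level `N' q q`, `A` a valuation ring of `ℚ̄` over `q`, `m` prime to `q`.

* `m59sb_ConstRed3 O hπ N' q hq2 hqN' g'` : over an unramified base `(L, O)` of [NF2-CTX]
  (vocabulary of `S36/Model/AsmLegFinal.lean`): for EVERY third valuation `VC` of
  `E₂ = lg_E L (N' q q)` with its package `s36asm_Third`, the function `g'` is congruent to constant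
  units of `O` at `VA = s36i_VA`, `VB = s36i_VB` and `VC` (twin of `s35_ConstRed`).
* `m59sb_TorAt A N' q hq2 hqN' m z` : **the normal form at level `N' q q`** (twin of the conclusion of
  `twft_normal_form`, TW/Easy/Toric/NormalForm.lean): `z` has a representative `f` which descends to
  an unramified level `L1`, `f = c₀ r₀^m bc g1`, and on the Legendre cover
  `ι g1 = k R^m g'` with `m ∣` all orders of `g'` and `m59sb_ConstRed3 g'`.
  THIS IS THE DEFINITION OF "`z` IS A TORIC CLASS" AT LEVEL `N' q q` (design decision (D1), #5356).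
* `m59sb_Tor A N' q hq2 hqN' p n` : the toric classes of exponent `p ^ n` fixed by `I_A`.
* `m59sb_Pull N' q` : the two pull-backs `J₀(N' q) → J₀(N' q q)` with their API ([PULL-API]).
* the LEVEL-2 seams `m59sb_G12_stmt` ((G1) + (G2'), after the push-forward dichotomy) and
  `m59sb_TorSurj_stmt` ([TOR-SURJ]: a toric class of exponent `p` is a sum of two pull-backs of
  `p`-power torsion classes of level `N' q`).
-/
import Mathlib
import Fermat.Agent.M59.SinkB.Seams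
import Fermat.Agent.S36.Model.AsmLegFinal
import Fermat.Agent.TW.Easy.Toric.NormalForm

set_option autoImplicit false
set_option linter.unusedSectionVars false
set_option linter.unusedVariables false
set_option linter.style.haveILetI false
set_option synthInstance.maxHeartbeats 400000
set_option maxHeartbeats 1000000

noncomputable section

namespace Fermat.Agent.M59

open ModularCurve AlgebraicCurve IntermediateField IsLocalRing
open Fermat.Agent.JT3 Fermat.Agent.SS Fermat.Agent.S35 Fermat.Agent.S36 Fermat.Agent.S24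
  Fermat.Agent.S44 Fermat.Agent.SS2 Fermat.Agent.TW

local notation "Qb" => AlgebraicClosure ℚ
local notation "GQ" => (AlgebraicClosure ℚ ≃ₐ[ℚ] AlgebraicClosure ℚ)

/-! ### constant reductions at the three vertical valuations -/

section Legendre

variable {L : Type*} [Field L] [CharZero L] [Algebra L (AlgebraicClosure ℚ)]
  (O : ValuationSubring L) [IsDiscreteValuationRing O] {π : O} (hπ : Irreducible π)
variable (N' q : ℕ) [NeZero N'] [NeZero q] [hq : Fact q.Prime] [CharP (ResidueField O) q]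
  (hq2 : ¬ 2 ∣ q) (hqN' : ¬ q ∣ N')

/-- the reductions of `g` at `VA`, `VB` and at every third valuation `VC` are constants. -/
def m59sb_ConstRed3 (g : ↥(lg_E L (N' * q * q))) : Prop :=
  ∀ VC : ValuationSubring ↥(lg_E L (N' * q * q)), s36asm_Third O hπ N' q hq2 hqN' VC →
    ∃ kA kB kC : O, IsUnit kA ∧ IsUnit kB ∧ IsUnit kC ∧
      g - algebraMap L ↥(lg_E L (N' * q * q)) (kA : L) ∈ (s36i_VA O hπ (N' * q) q).nonunits ∧
      g - algebraMap L ↥(lg_E L (N' * q * q)) (kB : L) ∈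
        (s36i_VB O hπ N' q hq2 hqN').nonunits ∧
      g - algebraMap L ↥(lg_E L (N' * q * q)) (kC : L) ∈ VC.nonunits

end Legendre

/-! ### the normal form = the toric classes -/

section Tor

variable (A : ValuationSubring Qb) (N' q : ℕ) [NeZero N'] [NeZero q] [hq : Fact q.Prime]
  [NeZero (N' * q * q)] (hq2 : ¬ 2 ∣ q) (hqN' : ¬ q ∣ N')

/-- **the normal form at level `N' q q`, exponent `m`.** -/
def m59sb_TorAt (m : ℕ) (z : JZero (N' * q * q)) : Prop :=
  ∃ f : modularFunctionFieldBar (N' * q * q), s44f_Rep (N' * q * q) m z f ∧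
    ∃ L1 : IntermediateField ℚ Qb, s35d_IsLevel A q L1 ∧
      ∃ (g1 : laurentBaseChange L1 (modularFunctionFieldFull (N' * q * q))) (c₀ : Qb)
        (r₀ : modularFunctionFieldBar (N' * q * q)), g1 ≠ 0 ∧ c₀ ≠ 0 ∧ r₀ ≠ 0 ∧
        f = algebraMap Qb (modularFunctionFieldBar (N' * q * q)) c₀ * r₀ ^ m *
          dsc_bcHom L1 Qb (modularFunctionFieldFull (N' * q * q)) g1 ∧
        ∀ [IsDiscreteValuationRing ↥(A.comap (algebraMap ↥L1 Qb))]
          [CharP (ResidueField ↥(A.comap (algebraMap ↥L1 Qb))) q]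
          (hπ : Irreducible ((q : ℕ) : ↥(A.comap (algebraMap ↥L1 Qb)))),
          ∃ (k : ↥L1) (R g' : ↥(lg_E ↥L1 (N' * q * q))), k ≠ 0 ∧ R ≠ 0 ∧ g' ≠ 0 ∧
            ss2_dp_iota ↥L1 (N' * q * q) g1 =
              algebraMap ↥L1 ↥(lg_E ↥L1 (N' * q * q)) k * R ^ m * g' ∧
            (∀ v : Place ↥L1 ↥(lg_E ↥L1 (N' * q * q)), (m : ℤ) ∣ v.ord g') ∧
            m59sb_ConstRed3 (A.comap (algebraMap ↥L1 Qb)) hπ N' q hq2 hqN' g'

/-- the toric classes of exponent `p ^ n` fixed by the inertia group of `A`. -/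
def m59sb_Tor (p n : ℕ) : Set (JZero (N' * q * q)) :=
  {z | (p ^ n) • z = 0 ∧ (∀ σ ∈ A.inertiaSubgroupIn ℚ, σ • z = z) ∧
    m59sb_TorAt A N' q hq2 hqN' (p ^ n) z}

end Tor

/-! ### the two pull-backs -/

/-- **[PULL-API]**: the two pull-backs `α^*, β^* : J₀(N' q) → J₀(N' q q)`, characterised on torsion
classes by their action on Kummer representatives, with the Hecke equivariance away from the level
(issue 2, request #5438 of helper15: the Hecke equivariance is asked on TORSION classes only, which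
is all that the wiring uses and all that this formalisation of `JZero` can prove). -/
structure m59sb_Pull (N' q : ℕ) [NeZero N'] [NeZero q] [NeZero (N' * q)] [NeZero (N' * q * q)] where
  pa : JZero (N' * q) →+ JZero (N' * q * q)
  pb : JZero (N' * q) →+ JZero (N' * q * q)
  pa_rep : ∀ (m : ℕ) (u : JZero (N' * q)) (f : modularFunctionFieldBar (N' * q)),
    s44f_Rep (N' * q) m u f →
      s44f_Rep (N' * q * q) m (pa u) (heckeAlphaBar (AlgebraicClosure ℚ) (N' * q) q f)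
  pb_rep : ∀ (m : ℕ) (u : JZero (N' * q)) (f : modularFunctionFieldBar (N' * q)),
    s44f_Rep (N' * q) m u f →
      s44f_Rep (N' * q * q) m (pb u) (heckeBetaBar (AlgebraicClosure ℚ) (N' * q) q f)
  pa_hecke : ∀ (ℓ : ℕ) (hℓ : ℓ.Prime), ¬ ℓ ∣ N' * q * q → ∀ u : JZero (N' * q),
    (∃ n : ℕ, n ≠ 0 ∧ n • u = 0) →
    heckeOperatorBar (N' * q * q) ⟨ℓ, hℓ⟩ (pa u) = pa (heckeOperatorBar (N' * q) ⟨ℓ, hℓ⟩ u)
  pb_hecke : ∀ (ℓ : ℕ) (hℓ : ℓ.Prime), ¬ ℓ ∣ N' * q * q → ∀ u : JZero (N' * q),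
    (∃ n : ℕ, n ≠ 0 ∧ n • u = 0) →
    heckeOperatorBar (N' * q * q) ⟨ℓ, hℓ⟩ (pb u) = pb (heckeOperatorBar (N' * q) ⟨ℓ, hℓ⟩ u)

/-- **[PULL-API]** as a seam. -/
def m59sb_Pull_stmt : Prop :=
  ∀ (N' q : ℕ) [NeZero N'] [NeZero q] [NeZero (N' * q)] [NeZero (N' * q * q)], q.Prime →
    Nonempty (m59sb_Pull N' q)

/-! ### the LEVEL-2 seams (`q` odd) -/

/-- **(G12) = (G1) [EIS] + (G2') [DELTA]**, after the push-forward dichotomy: a nonzero `I_A`-fixed
non-Eisenstein eigenclass of `J₀(N' q q)[p]` is a toric class, or there is a nonzero eigenclass with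
the same eigenvalues in `J₀(N' q)[p]`. -/
def m59sb_G12_stmt : Prop :=
  ∀ (N' q p : ℕ) [NeZero N'] [NeZero q] [Fact q.Prime] [NeZero (N' * q * q)] [Fact p.Prime],
    p ≠ 2 → q ≠ p → ∀ (hq2 : ¬ 2 ∣ q) (hqN' : ¬ q ∣ N'), 4 ∣ N' →
    ∀ A : ValuationSubring Qb, A.LiesOverPrime q →
    ∀ (S : Finset ℕ) (a : ℕ → ℤ), p ∈ S →
      (∃ ℓ₀ : ℕ, ℓ₀.Prime ∧ ¬ ℓ₀ ∣ N' * q * q ∧ ℓ₀ ∉ S ∧ ¬ (p : ℤ) ∣ (ℓ₀ : ℤ) + 1 - a ℓ₀) →
      ∀ z : JZero (N' * q * q), z ≠ 0 → p • z = 0 →
        (∀ σ ∈ A.inertiaSubgroupIn ℚ, σ • z = z) →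
        (∀ (ℓ : ℕ) (hℓ : ℓ.Prime), ¬ ℓ ∣ N' * q * q → ℓ ∉ S →
          heckeOperatorBar (N' * q * q) ⟨ℓ, hℓ⟩ z = a ℓ • z) →
        m59sb_TorAt A N' q hq2 hqN' p z ∨
          ∃ z' : JZero (N' * q), z' ≠ 0 ∧ p • z' = 0 ∧
            ∀ (ℓ : ℕ) (hℓ : ℓ.Prime), ¬ ℓ ∣ N' * q → ℓ ∉ S →
              heckeOperatorBar (N' * q) ⟨ℓ, hℓ⟩ z' = a ℓ • z'

/-- **[TOR-SURJ]**: an `I_A`-fixed toric class of exponent `p` at level `N' q q` is a sum of two
pull-backs of `p`-power torsion classes of level `N' q`. -/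
def m59sb_TorSurj_stmt : Prop :=
  ∀ (N' q p : ℕ) [NeZero N'] [NeZero q] [Fact q.Prime] [NeZero (N' * q)] [NeZero (N' * q * q)]
    [Fact p.Prime],
    p ≠ 2 → q ≠ p → ∀ (hq2 : ¬ 2 ∣ q) (hqN' : ¬ q ∣ N'), 4 ∣ N' →
    ∀ A : ValuationSubring Qb, A.LiesOverPrime q → ∀ P : m59sb_Pull N' q,
      ∀ z ∈ m59sb_Tor A N' q hq2 hqN' p 1,
        ∃ (k : ℕ) (u v : JZero (N' * q)), (p ^ k) • u = 0 ∧ (p ^ k) • v = 0 ∧
          z = P.pa u + P.pb v

end Fermat.Agent.M59
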