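/-
M59 / Sink B (architects helper15 + helper1): LEVELS 2 AND 3, ABSTRACT.  Prefix `m59sb_`.

Formalises Lemma 1, Lemma 2 and ENTRY of #5163 in the form of #5186 (1) (no `s36_Inv0`, no `T₂^I`),
with (G2') of #5177, cut as in helper1's (D2) of #5347.

LEVEL 2 (no toric data; objects `pa = α^*`, `pb = β^* : J₀(N' q) →+ J₀(N' q q)` and a set
`Tor1 ⊆ J₀(N' q q)` of toric classes of exponent `p`):
* `m59sb_PullApiOf p pa pb`     [PULL-API]  `pa`, `pb` commute with `T_ℓ`, `ℓ ∤ N' q q`, on `p`-power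
                                torsion;
* `m59sb_G12Of p A Tor1`        (G12) = (G1) [EIS] + (G2') [DELTA]: a nonzero inertia-fixed eigenclass
                                of `J₀(N' q q)[p]`, non-Eisenstein at one good prime, lies in `Tor1` or
                                gives a nonzero eigenclass of `J₀(N')[p]`;
* `m59sb_TorSurjOf p pa pb Tor1` [TOR-SURJ] a class of `Tor1` is `pa x + pb y` with `x, y` of
                                `p`-power order;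
* **`m59sb_wire_core`**: the three cells give the (disjunctive) conclusion of `m59sb_CoreAt` (SinkB/Seams.lean)
  (finite-module eigenvector lemma `m59sb_exists_ker_of_image`; Hecke operators commute on
  `p`-power torsion by `tji_hecke_comm`).

LEVEL 3 (under [TOR-SURJ]; design pattern of `s44_Frame`, S44/Low/Seams.lean): the OBJECTS are the
fields of `m59sb_Frame`: `pa`, `pb`, abelian groups `A1`, `A2` (targets of the toric data at levels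
`N' q`, `N' q q`) with `Lam : A1 × A1 ≃+ A2`, `t1 : J₀(N' q) → A1`, `t2 : J₀(N' q q) → A2`,
`Tor n ⊆ J₀(N' q q)` the toric classes of exponent `p ^ n`, `σ₀` a generator of the inertia at `A`
on the `p`-part.  The CELLS:
* `m59sb_TameGen Fr`  [TAME-GEN]  `σ₀ ∈ I_A`, and `T_p J₀(N' q)^{σ₀} = T_p J₀(N' q)^{I_A}`;
* `m59sb_Tor3 Fr`     (G3)        `t2` EXACTLY injective on `Tor n`; `Tor n ⊆ Tor (n+1)`; `p • t2 z = 0`
                                  on `Tor 1`; `A2[p]` lifts to `T_p A2`;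
* `m59sb_Tau1 Fr`     (F4)        `t1` additive on `Y1 n` (inertia-fixed, killed by both
                                  push-forwards), injective on compatible systems; `T_p A1` finite;
* `m59sb_Mass`        [MASS-ineq] `2 rank T_p A1 + 2 rank T_p J₀(N') ≤ rank T_p J₀(N' q)`;
* `m59sb_PullTor Fr`     (G4)        `pa u_n + pb v_n ∈ Tor n` and `t2 (pa u_n + pb v_n) = Lam (t1 u_n, t1 v_n)`;
* **`m59sb_torSurj_of_frame`**: these five give [TOR-SURJ] for `(Fr.pa, Fr.pb, Fr.Tor 1)`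
  (`m59sb_frame_lemma1` = Lemma 1, `m59sb_frame_lemma2` = Lemma 2);
* `m59sb_core_of_frame`: levels 2 and 3 composed.
-/
import Mathlib
import Fermat.Agent.M59.SinkB.Alg.Eig
import Fermat.Agent.M59.SinkB.Alg.Rank
import Fermat.Agent.S35.PMaps
import Fermat.Agent.MZ.F3.Unip
import Fermat.Agent.JT3.Tate.JZeroInputs
import Fermat.Agent.JT3.Tate.Inputs

set_option autoImplicit false
set_option linter.unusedSectionVars false
set_option linter.unusedVariables false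
set_option linter.style.haveILetI false
set_option synthInstance.maxHeartbeats 400000
set_option maxHeartbeats 1000000

noncomputable section

namespace Fermat.Agent.M59

open Fermat.Agent.JT3 Fermat.Agent.S35 Fermat.Agent.MZ ModularCurve Module

local notation "Qb" => AlgebraicClosure ℚ
local notation "GQ" => (AlgebraicClosure ℚ ≃ₐ[ℚ] AlgebraicClosure ℚ)

/-! ### additive maps on the levels of a Tate module -/

section TauLin

variable {J A1 : Type*} [AddCommGroup J] [AddCommGroup A1] {p : ℕ} [hp : Fact p.Prime]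
  (Y1 : ℕ → AddSubgroup J) (t1 : J → A1)
  (hadd : ∀ n, ∀ x ∈ Y1 n, ∀ y ∈ Y1 n, t1 (x + y) = t1 x + t1 y)

include hadd

theorem m59sb_t1_zero : t1 0 = 0 := by
  have h := hadd 0 0 (Y1 0).zero_mem 0 (Y1 0).zero_mem
  rw [add_zero] at h
  exact left_eq_add.1 h

theorem m59sb_t1_nsmul (n : ℕ) (x : J) (hx : x ∈ Y1 n) (k : ℕ) : t1 (k • x) = k • t1 x := by
  induction k with
  | zero => rw [zero_nsmul, zero_nsmul]; exact m59sb_t1_zero Y1 t1 hadd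
  | succ k ih => rw [succ_nsmul, succ_nsmul, hadd n _ ((Y1 n).nsmul_mem hx k) _ hx, ih]

/-- the levelwise image of a compatible system of `Y1` is a compatible system -/
theorem m59sb_t1_mem (y : tm_T J p) (hy : ∀ n, y.1 n ∈ Y1 n) :
    (fun n => t1 (y.1 n)) ∈ tm_T A1 p := by
  intro n
  refine ⟨?_, ?_⟩
  · show p ^ n • t1 (y.1 n) = 0
    rw [← m59sb_t1_nsmul Y1 t1 hadd n _ (hy n), tm_tor, m59sb_t1_zero Y1 t1 hadd]
  · show p • t1 (y.1 (n + 1)) = t1 (y.1 n)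
    rw [← m59sb_t1_nsmul Y1 t1 hadd (n + 1) _ (hy (n + 1)), tm_compat]

/-- **the toric datum on a submodule of the Tate module**, as a `ℤ_p`-linear map. -/
def m59sb_tauLin (Y : Submodule ℤ_[p] (tm_T J p)) (hY : ∀ y ∈ Y, ∀ n, y.1 n ∈ Y1 n) :
    ↥Y →ₗ[ℤ_[p]] tm_T A1 p where
  toFun y := ⟨fun n => t1 (y.1.1 n), m59sb_t1_mem Y1 t1 hadd y.1 (hY y.1 y.2)⟩
  map_add' x y := by
    refine tm_ext fun n => ?_
    show t1 (x.1.1 n + y.1.1 n) = t1 (x.1.1 n) + t1 (y.1.1 n)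
    exact hadd n _ (hY x.1 x.2 n) _ (hY y.1 y.2 n)
  map_smul' c y := by
    refine tm_ext fun n => ?_
    show t1 ((PadicInt.toZModPow n c).val • y.1.1 n) = (PadicInt.toZModPow n c).val • t1 (y.1.1 n)
    exact m59sb_t1_nsmul Y1 t1 hadd n _ (hY y.1 y.2 n) _

theorem m59sb_tauLin_apply (Y : Submodule ℤ_[p] (tm_T J p)) (hY : ∀ y ∈ Y, ∀ n, y.1 n ∈ Y1 n)
    (y : ↥Y) (n : ℕ) : (m59sb_tauLin Y1 t1 hadd Y hY y).1 n = t1 (y.1.1 n) := rfl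

end TauLin

/-! ### the frame and its cells -/

section Frame

variable (N' q p : ℕ) [NeZero N'] [NeZero q] [hp : Fact p.Prime] (A : ValuationSubring Qb)

/-- the toric classes of level `N' q` and exponent `p ^ n`: fixed by the inertia group of `A` and
killed by both push-forwards to level `N'`. -/
def m59sb_Y1 (n : ℕ) : AddSubgroup (JZero (N' * q)) where
  carrier := {u | p ^ n • u = 0 ∧ (∀ σ ∈ A.inertiaSubgroupIn ℚ, σ • u = u) ∧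
    s35p_P1J N' q u = 0 ∧ s35p_P2J N' q u = 0}
  zero_mem' := ⟨smul_zero _, fun σ _ => smul_zero σ, map_zero _, map_zero _⟩
  add_mem' := fun {x y} hx hy =>
    ⟨by rw [nsmul_add, hx.1, hy.1, add_zero],
     fun σ hσ => by rw [smul_add, hx.2.1 σ hσ, hy.2.1 σ hσ],
     by rw [map_add, hx.2.2.1, hy.2.2.1, add_zero],
     by rw [map_add, hx.2.2.2, hy.2.2.2, add_zero]⟩
  neg_mem' := fun {x} hx =>
    ⟨by rw [neg_nsmul, hx.1, neg_zero],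
     fun σ hσ => by rw [smul_neg, hx.2.1 σ hσ],
     by rw [map_neg, hx.2.2.1, neg_zero],
     by rw [map_neg, hx.2.2.2, neg_zero]⟩

/-- **the objects of (E-q²)** at `(N', q)` (the cells below fix `p` and `A`). -/
structure m59sb_Frame (N' q : ℕ) [NeZero N'] [NeZero q] (A1 A2 : Type) [AddCommGroup A1]
    [AddCommGroup A2] where
  /-- `α^* : J₀(N' q) → J₀(N' q q)` -/
  pa : JZero (N' * q) →+ JZero (N' * q * q)
  /-- `β^* : J₀(N' q) → J₀(N' q q)` -/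
  pb : JZero (N' * q) →+ JZero (N' * q * q)
  /-- the pull-back of toric data along `(α, β)` on the supersingular points -/
  Lam : A1 × A1 ≃+ A2
  /-- the toric datum at level `N' q` -/
  t1 : JZero (N' * q) → A1
  /-- the toric datum at level `N' q q` -/
  t2 : JZero (N' * q * q) → A2
  /-- the toric classes of exponent `p ^ n` at level `N' q q` -/
  Tor : ℕ → Set (JZero (N' * q * q))
  /-- a generator of the inertia at `A` on `p`-parts -/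
  σ₀ : GQ

end Frame

section Cells

variable {N' q : ℕ} [NeZero N'] [NeZero q] {A1 A2 : Type} [AddCommGroup A1] [AddCommGroup A2]

/-- **[PULL-API]** (level 2): `α^*`, `β^*` commute with the Hecke operators `T_ℓ`, `ℓ ∤ N' q q`, on
the `p`-power torsion. -/
def m59sb_PullApiOf (p : ℕ) (pa pb : JZero (N' * q) →+ JZero (N' * q * q)) : Prop :=
  ∀ (ℓ : ℕ) (hℓ : ℓ.Prime), ¬ ℓ ∣ N' * q * q → ∀ x : JZero (N' * q), (∃ n : ℕ, p ^ n • x = 0) →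
    pa (heckeOperatorBar (N' * q) ⟨ℓ, hℓ⟩ x) = heckeOperatorBar (N' * q * q) ⟨ℓ, hℓ⟩ (pa x) ∧
    pb (heckeOperatorBar (N' * q) ⟨ℓ, hℓ⟩ x) = heckeOperatorBar (N' * q * q) ⟨ℓ, hℓ⟩ (pb x)

/-- **(G12) = (G1) [EIS] + (G2') [DELTA]** (level 2): a nonzero inertia-fixed eigenclass of
`J₀(N' q q)[p]` which is non-Eisenstein at one good prime is a toric class, or produces a nonzero
eigenclass of `J₀(N' q)[p]` (e.g. one of its two push-forwards), or one of `J₀(N')[p]` (the residue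
class `δ`). -/
def m59sb_G12Of (p : ℕ) (A : ValuationSubring Qb) (Tor1 : Set (JZero (N' * q * q))) : Prop :=
  ∀ (S : Finset ℕ) (a : ℕ → ℤ), p ∈ S →
    (∃ ℓ₀ : ℕ, ℓ₀.Prime ∧ ¬ ℓ₀ ∣ N' * q * q ∧ ℓ₀ ∉ S ∧ ¬ (p : ℤ) ∣ (ℓ₀ : ℤ) + 1 - a ℓ₀) →
    ∀ z : JZero (N' * q * q), z ≠ 0 → p • z = 0 →
      (∀ σ ∈ A.inertiaSubgroupIn ℚ, σ • z = z) →
      (∀ (ℓ : ℕ) (hℓ : ℓ.Prime), ¬ ℓ ∣ N' * q * q → ℓ ∉ S →
        heckeOperatorBar (N' * q * q) ⟨ℓ, hℓ⟩ z = a ℓ • z) →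
      z ∈ Tor1 ∨
      (∃ z' : JZero (N' * q), z' ≠ 0 ∧ p • z' = 0 ∧
        ∀ (ℓ : ℕ) (hℓ : ℓ.Prime), ¬ ℓ ∣ N' * q * q → ℓ ∉ S →
          heckeOperatorBar (N' * q) ⟨ℓ, hℓ⟩ z' = a ℓ • z') ∨
      (∃ z₀ : JZero N', z₀ ≠ 0 ∧ p • z₀ = 0 ∧
        ∀ (ℓ : ℕ) (hℓ : ℓ.Prime), ¬ ℓ ∣ N' * q → ℓ ∉ S →
          heckeOperatorBar N' ⟨ℓ, hℓ⟩ z₀ = a ℓ • z₀)

/-- **[TOR-SURJ]** (level 2): a toric class of exponent `p` is `α^* x + β^* y` with `x`, `y` of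
`p`-power order. -/
def m59sb_TorSurjOf (p : ℕ) (pa pb : JZero (N' * q) →+ JZero (N' * q * q))
    (Tor1 : Set (JZero (N' * q * q))) : Prop :=
  ∀ z ∈ Tor1, ∃ (k : ℕ) (x y : JZero (N' * q)), p ^ k • x = 0 ∧ p ^ k • y = 0 ∧ z = pa x + pb y

/-- [PULL-API] for the maps of a frame -/
def m59sb_PullApi (p : ℕ) (Fr : m59sb_Frame N' q A1 A2) : Prop :=
  m59sb_PullApiOf p Fr.pa Fr.pb

/-- (G12) for the toric classes of a frame -/
def m59sb_EisDelta (p : ℕ) (A : ValuationSubring Qb) (Fr : m59sb_Frame N' q A1 A2) : Prop :=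
  m59sb_G12Of p A (Fr.Tor 1)

/-- [TOR-SURJ] for a frame -/
def m59sb_TorSurj (p : ℕ) (Fr : m59sb_Frame N' q A1 A2) : Prop :=
  m59sb_TorSurjOf p Fr.pa Fr.pb (Fr.Tor 1)

/-- **[TAME-GEN]**: `σ₀` lies in the inertia group of `A`, and a vector of `T_p J₀(N' q)` fixed by
`σ₀` is fixed by the whole inertia group. -/
def m59sb_TameGen (p : ℕ) [Fact p.Prime] (A : ValuationSubring Qb)
    (Fr : m59sb_Frame N' q A1 A2) : Prop :=
  Fr.σ₀ ∈ A.inertiaSubgroupIn ℚ ∧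
    ∀ x : tj_T (N' * q) p, tj_rho (N' * q) p Fr.σ₀ x = x →
      ∀ σ ∈ A.inertiaSubgroupIn ℚ, tj_rho (N' * q) p σ x = x

/-- **(G3)**: the toric datum `t2` is EXACTLY injective on the toric classes of each exponent. -/
structure m59sb_Tor3 (p : ℕ) [Fact p.Prime] (Fr : m59sb_Frame N' q A1 A2) : Prop where
  inj : ∀ n, ∀ x ∈ Fr.Tor n, ∀ y ∈ Fr.Tor n, Fr.t2 x = Fr.t2 y → x = y
  mono : ∀ n, ∀ z ∈ Fr.Tor n, z ∈ Fr.Tor (n + 1)
  ptor : ∀ z ∈ Fr.Tor 1, p • Fr.t2 z = 0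
  div : ∀ a : A2, p • a = 0 → ∃ h : tm_T A2 p, h.1 1 = a

/-- **(F4)**: the toric datum `t1` at level `N' q`. -/
structure m59sb_Tau1 (p : ℕ) [Fact p.Prime] (A : ValuationSubring Qb)
    (Fr : m59sb_Frame N' q A1 A2) : Prop where
  add : ∀ n, ∀ x ∈ m59sb_Y1 N' q p A n, ∀ y ∈ m59sb_Y1 N' q p A n,
    Fr.t1 (x + y) = Fr.t1 x + Fr.t1 y
  inj : ∀ y : tj_T (N' * q) p, (∀ n, y.1 n ∈ m59sb_Y1 N' q p A n) →
    (∀ n, Fr.t1 (y.1 n) = 0) → y = 0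
  fin : Module.Finite ℤ_[p] (tm_T A1 p)

/-- **[MASS-ineq]**: the number of toric characters of level `N' q` is at most
`g(N' q) - 2 g(N')`. -/
def m59sb_Mass (N' q p : ℕ) [NeZero N'] [NeZero q] [Fact p.Prime] (A1 : Type) [AddCommGroup A1] :
    Prop :=
  2 * finrank ℤ_[p] (tm_T A1 p) + 2 * finrank ℤ_[p] (tj_T N' p) ≤
    finrank ℤ_[p] (tj_T (N' * q) p)

/-- **(G4) [PULL]**: the pull-back of two compatible systems of toric classes of level `N' q` is a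
compatible system of toric classes of level `N' q q`, with toric datum `Lam (t1 u, t1 v)`. -/
def m59sb_PullTor (p : ℕ) [Fact p.Prime] (A : ValuationSubring Qb)
    (Fr : m59sb_Frame N' q A1 A2) : Prop :=
  ∀ u v : tj_T (N' * q) p, (∀ n, u.1 n ∈ m59sb_Y1 N' q p A n) →
    (∀ n, v.1 n ∈ m59sb_Y1 N' q p A n) → ∀ n,
      Fr.pa (u.1 n) + Fr.pb (v.1 n) ∈ Fr.Tor n ∧
        Fr.t2 (Fr.pa (u.1 n) + Fr.pb (v.1 n)) = Fr.Lam (Fr.t1 (u.1 n), Fr.t1 (v.1 n))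

end Cells

/-! ### Lemma 1 in the frame -/

section Lemma1

variable {N' q p : ℕ} [NeZero N'] [NeZero q] [hp : Fact p.Prime] {A : ValuationSubring Qb}
  {A1 A2 : Type} [AddCommGroup A1] [AddCommGroup A2] (Fr : m59sb_Frame N' q A1 A2)

/-- **Lemma 1 of #5163 in the frame**: some `p ^ c` maps every compatible system of toric data of
level `N' q` to the toric datum of a compatible system of toric classes. -/
theorem m59sb_frame_lemma1 (hq : q.Prime) (hqp : q ≠ p) (hqN' : ¬ q ∣ N')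
    (hA : A.LiesOverPrime q) (hG : m59sb_TameGen p A Fr) (hT : m59sb_Tau1 p A Fr)
    (hM : m59sb_Mass N' q p A1) :
    ∃ c : ℕ, ∀ h : tm_T A1 p, ∃ y : tj_T (N' * q) p,
      (∀ n, y.1 n ∈ m59sb_Y1 N' q p A n) ∧ ∀ n, Fr.t1 (y.1 n) = p ^ c • h.1 n := by
  classical
  obtain ⟨hσ₀, hgen⟩ := hG
  have hqNq : q ∣ N' * q := dvd_mul_left q N'
  have hq2Nq : ¬ q ^ 2 ∣ N' * q := by
    rintro ⟨c, hc⟩
    apply hqN'
    refine ⟨c, ?_⟩
    have : q * N' = q * (q * c) := by rw [mul_comm q N', hc]; ring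
    exact Nat.eq_of_mul_eq_mul_left hq.pos this
  -- the linear maps
  set a : tj_T (N' * q) p →ₗ[ℤ_[p]] tj_T N' p := s35p_P1 N' q p with ha
  set b : tj_T (N' * q) p →ₗ[ℤ_[p]] tj_T N' p := s35p_P2 N' q p with hb
  set Nl : tj_T (N' * q) p →ₗ[ℤ_[p]] tj_T (N' * q) p := tj_rho (N' * q) p Fr.σ₀ - 1 with hNl
  have hNl_apply : ∀ x : tj_T (N' * q) p, ∀ n, (Nl x).1 n = Fr.σ₀ • x.1 n - x.1 n := by
    intro x n
    rfl
  have hNN : ∀ x, Nl (Nl x) = 0 := by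
    intro x
    refine tm_ext fun n => ?_
    rw [hNl_apply, hNl_apply, tm_zero_apply]
    have h := mzf3_unip (N' * q) q hq hqNq hq2Nq A hA Fr.σ₀ hσ₀ p hp.out (Ne.symm hqp) n (x.1 n)
      (tm_tor x n)
    rw [smul_sub, two_nsmul] at *
    rw [← h]
    abel
  have hunr : tj_rho N' p Fr.σ₀ = 1 :=
    tj_unram N' p (tji_nodeE N') (tji_S18 N') q hq hqN' hqp A hA Fr.σ₀ hσ₀
  have haN : ∀ x, a (Nl x) = 0 := by
    intro x
    rw [hNl, LinearMap.sub_apply, map_sub, ha, s35p_P1_rho, hunr]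
    show s35p_P1 N' q p x - s35p_P1 N' q p x = 0
    exact sub_self _
  have hbN : ∀ x, b (Nl x) = 0 := by
    intro x
    rw [hNl, LinearMap.sub_apply, map_sub, hb, s35p_P2_rho, hunr]
    show s35p_P2 N' q p x - s35p_P2 N' q p x = 0
    exact sub_self _
  -- the submodule `Y`
  set Y : Submodule ℤ_[p] (tj_T (N' * q) p) :=
    LinearMap.ker a ⊓ LinearMap.ker b ⊓ LinearMap.ker Nl with hYdef
  have hY : ∀ y ∈ Y, ∀ n, y.1 n ∈ m59sb_Y1 N' q p A n := by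
    intro y hy n
    obtain ⟨⟨hya, hyb⟩, hyN⟩ := hy
    refine ⟨tm_tor y n, fun σ hσ => ?_, ?_, ?_⟩
    · have h1 : tj_rho (N' * q) p Fr.σ₀ y = y := by
        have h2 : Nl y = 0 := hyN
        rw [hNl, LinearMap.sub_apply] at h2
        exact sub_eq_zero.mp h2
      have h3 := hgen y h1 σ hσ
      exact congrArg (fun w : tj_T (N' * q) p => w.1 n) h3
    · have h1 : a y = 0 := hya
      exact congrArg (fun w : tj_T N' p => w.1 n) h1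
    · have h1 : b y = 0 := hyb
      exact congrArg (fun w : tj_T N' p => w.1 n) h1
  -- the toric datum
  set τ := m59sb_tauLin (m59sb_Y1 N' q p A) Fr.t1 hT.add Y hY with hτ
  have hτinj : Function.Injective τ := by
    rw [← LinearMap.ker_eq_bot, LinearMap.ker_eq_bot']
    intro y hy
    apply Subtype.ext
    apply hT.inj y.1 (hY y.1 y.2)
    intro n
    have := congrArg (fun w : tm_T A1 p => w.1 n) hy
    exact this
  haveI := hT.fin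
  obtain ⟨c, hc⟩ := m59sb_lemma1 a b Nl hNN haN hbN (finrank ℤ_[p] (tm_T A1 p)) le_rfl hM τ hτinj
  refine ⟨c, fun h => ?_⟩
  obtain ⟨y, hyY, hyτ⟩ := hc h
  refine ⟨y, hY y hyY, fun n => ?_⟩
  have h1 := congrArg (fun w : tm_T A1 p => w.1 n) hyτ
  have h2 : ((p : ℤ_[p]) ^ c • h).1 n = p ^ c • h.1 n := by
    rw [← Nat.cast_pow, tm_natCast_smul_apply]
  rw [← h2]
  exact h1

end Lemma1

/-! ### Hecke operators commute on `p`-power torsion -/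

section Comm

variable (N p : ℕ) [NeZero N] [hp : Fact p.Prime]

/-- the Hecke operators at primes not dividing `N` commute on the `p`-power torsion of `J₀(N)`
(from `tji_hecke_comm` on the Tate module and `mzf3_exists_tate_lift`). -/
theorem m59sb_hecke_comm_tors {ℓ ℓ' : ℕ} (hℓ : ℓ.Prime) (hℓ' : ℓ'.Prime) (hℓN : ¬ ℓ ∣ N)
    (hℓ'N : ¬ ℓ' ∣ N) {n : ℕ} {x : JZero N} (hx : p ^ n • x = 0) :
    heckeOperatorBar N ⟨ℓ, hℓ⟩ (heckeOperatorBar N ⟨ℓ', hℓ'⟩ x) =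
      heckeOperatorBar N ⟨ℓ', hℓ'⟩ (heckeOperatorBar N ⟨ℓ, hℓ⟩ x) := by
  haveI : Fact ℓ.Prime := ⟨hℓ⟩
  haveI : Fact ℓ'.Prime := ⟨hℓ'⟩
  obtain ⟨X, hX⟩ := mzf3_exists_tate_lift N p hx
  have h := (tji_hecke_comm N p ℓ ℓ' hℓN hℓ'N).eq
  have h1 := congrArg (fun f : Module.End ℤ_[p] (tm_T (JZero N) p) => (f X).1 n) h
  rw [← hX]
  exact h1

end Comm

/-! ### the wiring -/

section Main

variable {N' q p : ℕ} [NeZero N'] [NeZero q] [hp : Fact p.Prime] {A : ValuationSubring Qb}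
  {A1 A2 : Type} [AddCommGroup A1] [AddCommGroup A2] (Fr : m59sb_Frame N' q A1 A2)

/-- **Lemma 2 of #5163 in the frame** (in the form of #5186 (1)): a toric class of exponent `p` is
`α^* x + β^* y` with `x, y ∈ J₀(N' q)[p ^ (c+1)]`. -/
theorem m59sb_frame_lemma2 (c : ℕ)
    (hc : ∀ h : tm_T A1 p, ∃ y : tj_T (N' * q) p,
      (∀ n, y.1 n ∈ m59sb_Y1 N' q p A n) ∧ ∀ n, Fr.t1 (y.1 n) = p ^ c • h.1 n)
    (h3 : m59sb_Tor3 p Fr) (hPull : m59sb_PullTor p A Fr)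
    (z : JZero (N' * q * q)) (hz : z ∈ Fr.Tor 1) :
    ∃ x y : JZero (N' * q), p ^ (c + 1) • x = 0 ∧ p ^ (c + 1) • y = 0 ∧
      z = Fr.pa x + Fr.pb y := by
  obtain ⟨h, hh⟩ := h3.div (Fr.t2 z) (h3.ptor z hz)
  -- the two components of `Lam⁻¹ h`
  have hmem1 : (fun n => (Fr.Lam.symm (h.1 n)).1) ∈ tm_T A1 p := by
    intro n
    refine ⟨?_, ?_⟩
    · show p ^ n • (Fr.Lam.symm (h.1 n)).1 = 0
      rw [← Prod.smul_fst, ← map_nsmul, tm_tor, map_zero, Prod.fst_zero]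
    · show p • (Fr.Lam.symm (h.1 (n + 1))).1 = (Fr.Lam.symm (h.1 n)).1
      rw [← Prod.smul_fst, ← map_nsmul, tm_compat]
  have hmem2 : (fun n => (Fr.Lam.symm (h.1 n)).2) ∈ tm_T A1 p := by
    intro n
    refine ⟨?_, ?_⟩
    · show p ^ n • (Fr.Lam.symm (h.1 n)).2 = 0
      rw [← Prod.smul_snd, ← map_nsmul, tm_tor, map_zero, Prod.snd_zero]
    · show p • (Fr.Lam.symm (h.1 (n + 1))).2 = (Fr.Lam.symm (h.1 n)).2
      rw [← Prod.smul_snd, ← map_nsmul, tm_compat]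
  obtain ⟨u, hu1, hu2⟩ := hc ⟨_, hmem1⟩
  obtain ⟨v, hv1, hv2⟩ := hc ⟨_, hmem2⟩
  obtain ⟨hT, ht2⟩ := hPull u v hu1 hv1 (c + 1)
  refine ⟨u.1 (c + 1), v.1 (c + 1), tm_tor u (c + 1), tm_tor v (c + 1), ?_⟩
  -- `z ∈ Tor (c + 1)`
  have hmono : ∀ k, z ∈ Fr.Tor (k + 1) := by
    intro k
    induction k with
    | zero => exact hz
    | succ k ih => exact h3.mono _ z ih
  refine (h3.inj (c + 1) _ hT z (hmono c) ?_).symm
  rw [ht2, hu2 (c + 1), hv2 (c + 1)]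
  show Fr.Lam (p ^ c • (Fr.Lam.symm (h.1 (c + 1))).1, p ^ c • (Fr.Lam.symm (h.1 (c + 1))).2) = _
  rw [← Prod.smul_mk, Prod.mk.eta, map_nsmul, AddEquiv.apply_symm_apply, add_comm c 1,
    tm_pow_smul h 1 c, hh]

/-- **ENTRY of #5186 (1)**: a nonzero eigenclass of `J₀(N' q q)[p]` of the form `α^* x + β^* y`,
`x, y ∈ J₀(N' q)[p ^ k]`, forces a nonzero eigenclass of `J₀(N' q)[p]` (finite-module eigenvector
lemma; only `α^* T_ℓ = T_ℓ α^*`, `β^* T_ℓ = T_ℓ β^*` are used of the Hecke action). -/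
theorem m59sb_wire_entry (pa pb : JZero (N' * q) →+ JZero (N' * q * q))
    (hP : m59sb_PullApiOf p pa pb) (S : Finset ℕ) (a : ℕ → ℤ)
    (z : JZero (N' * q * q)) (hz0 : z ≠ 0) (hpz : p • z = 0)
    (hzeig : ∀ (ℓ : ℕ) (hℓ : ℓ.Prime), ¬ ℓ ∣ N' * q * q → ℓ ∉ S →
      heckeOperatorBar (N' * q * q) ⟨ℓ, hℓ⟩ z = a ℓ • z)
    (k : ℕ) (x y : JZero (N' * q)) (hx : p ^ k • x = 0) (hy : p ^ k • y = 0)
    (hzxy : z = pa x + pb y) :
    ∃ z' : JZero (N' * q), z' ≠ 0 ∧ p • z' = 0 ∧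
      ∀ (ℓ : ℕ) (hℓ : ℓ.Prime), ¬ ℓ ∣ N' * q * q → ℓ ∉ S →
        heckeOperatorBar (N' * q) ⟨ℓ, hℓ⟩ z' = a ℓ • z' := by
  classical
  -- the finite group `K = J₀(N' q)[p ^ k]`
  set K : AddSubgroup (JZero (N' * q)) := tm_K (JZero (N' * q)) p k with hK
  haveI hfinK : Finite ↥K := by
    haveI := tj_finite (N' * q) p k
    exact Finite.of_equiv {x : JZero (N' * q) // p ^ k • x = 0}
      (Equiv.subtypeEquivRight fun _ => (tm_mem_K (J := JZero (N' * q)) (p := p)).symm)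
  -- the index set
  let Λ : Type := Option {ℓ : ℕ // ℓ.Prime ∧ ¬ ℓ ∣ N' * q * q ∧ ℓ ∉ S}
  have hNq : ∀ ℓ : ℕ, ¬ ℓ ∣ N' * q * q → ¬ ℓ ∣ N' * q := fun ℓ h h' => h (dvd_mul_of_dvd_left h' q)
  -- the operators on `J₀(N' q)`, on `K`, on `J₀(N' q q)`
  let S1 : Λ → AddMonoid.End (JZero (N' * q)) := fun i =>
    match i with
    | none => nsmulAddMonoidHom p
    | some ℓ => (heckeOperatorBar (N' * q) ⟨ℓ.1, ℓ.2.1⟩).toAddMonoidHom -
        zsmulAddGroupHom (a ℓ.1)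
  let S2 : Λ → AddMonoid.End (JZero (N' * q * q)) := fun i =>
    match i with
    | none => nsmulAddMonoidHom p
    | some ℓ => (heckeOperatorBar (N' * q * q) ⟨ℓ.1, ℓ.2.1⟩).toAddMonoidHom -
        zsmulAddGroupHom (a ℓ.1)
  have hS1K : ∀ i, ∀ w ∈ K, S1 i w ∈ K := by
    intro i w hw
    rw [hK, tm_mem_K] at hw ⊢
    rw [← map_nsmul, hw, map_zero]
  let SK : Λ → AddMonoid.End ↥K := fun i =>
    ((S1 i).comp K.subtype).codRestrict K (fun w => hS1K i w.1 w.2)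
  have hSK : ∀ i (w : ↥K), ((SK i w : ↥K) : JZero (N' * q)) = S1 i w.1 := fun i w => rfl
  -- commutation on `K`
  have hS1comm : ∀ i j, ∀ w ∈ K, S1 i (S1 j w) = S1 j (S1 i w) := by
    intro i j w hw
    rw [hK, tm_mem_K] at hw
    rcases i with _ | ℓ <;> rcases j with _ | ℓ'
    · rfl
    · show p • (S1 (some ℓ') w) = S1 (some ℓ') (p • w)
      rw [map_nsmul]
    · show S1 (some ℓ) (p • w) = p • (S1 (some ℓ) w)
      rw [map_nsmul]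
    · show heckeOperatorBar (N' * q) ⟨ℓ.1, ℓ.2.1⟩
          (heckeOperatorBar (N' * q) ⟨ℓ'.1, ℓ'.2.1⟩ w - a ℓ'.1 • w) -
          a ℓ.1 • (heckeOperatorBar (N' * q) ⟨ℓ'.1, ℓ'.2.1⟩ w - a ℓ'.1 • w) =
        heckeOperatorBar (N' * q) ⟨ℓ'.1, ℓ'.2.1⟩
          (heckeOperatorBar (N' * q) ⟨ℓ.1, ℓ.2.1⟩ w - a ℓ.1 • w) -
          a ℓ'.1 • (heckeOperatorBar (N' * q) ⟨ℓ.1, ℓ.2.1⟩ w - a ℓ.1 • w)
      rw [map_sub, map_sub, map_zsmul, map_zsmul,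
        m59sb_hecke_comm_tors (N' * q) p ℓ.2.1 ℓ'.2.1 (hNq _ ℓ.2.2.1) (hNq _ ℓ'.2.2.1) hw,
        zsmul_sub, zsmul_sub, ← mul_zsmul, ← mul_zsmul, mul_comm (a ℓ.1) (a ℓ'.1)]
      abel
  -- the operators on `K × K`
  let SH : Λ → AddMonoid.End (↥K × ↥K) := fun i => (SK i).prodMap (SK i)
  have hSHcomm : ∀ i j, Commute (SH i) (SH j) := by
    intro i j
    refine AddMonoidHom.ext fun w => ?_
    show ((SK i) ((SK j) w.1), (SK i) ((SK j) w.2)) = ((SK j) ((SK i) w.1), (SK j) ((SK i) w.2))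
    refine Prod.ext (Subtype.ext ?_) (Subtype.ext ?_)
    · exact hS1comm i j w.1.1 w.1.2
    · exact hS1comm i j w.2.1 w.2.2
  -- the map `φ = α^* + β^*`
  let φ : ↥K × ↥K →+ JZero (N' * q * q) :=
    AddMonoidHom.coprod (pa.comp K.subtype) (pb.comp K.subtype)
  have hφ_apply : ∀ w : ↥K × ↥K, φ w = pa w.1.1 + pb w.2.1 := fun w => rfl
  have hpaS : ∀ i, ∀ w ∈ K, pa (S1 i w) = S2 i (pa w) ∧ pb (S1 i w) = S2 i (pb w) := by
    intro i w hw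
    rw [hK, tm_mem_K] at hw
    rcases i with _ | ℓ
    · exact ⟨map_nsmul pa p w, map_nsmul pb p w⟩
    · obtain ⟨h1, h2⟩ := hP ℓ.1 ℓ.2.1 ℓ.2.2.1 w ⟨k, hw⟩
      constructor
      · show pa (heckeOperatorBar (N' * q) ⟨ℓ.1, ℓ.2.1⟩ w - a ℓ.1 • w) =
          heckeOperatorBar (N' * q * q) ⟨ℓ.1, ℓ.2.1⟩ (pa w) - a ℓ.1 • pa w
        rw [map_sub, map_zsmul, h1]
      · show pb (heckeOperatorBar (N' * q) ⟨ℓ.1, ℓ.2.1⟩ w - a ℓ.1 • w) =
          heckeOperatorBar (N' * q * q) ⟨ℓ.1, ℓ.2.1⟩ (pb w) - a ℓ.1 • pb w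
        rw [map_sub, map_zsmul, h2]
  have hφS : ∀ i w, φ (SH i w) = S2 i (φ w) := by
    intro i w
    rw [hφ_apply, hφ_apply, map_add]
    show pa (S1 i w.1.1) + pb (S1 i w.2.1) = _
    rw [(hpaS i w.1.1 w.1.2).1, (hpaS i w.2.1 w.2.2).2]
  have hS2z : ∀ i, S2 i z = 0 := by
    intro i
    rcases i with _ | ℓ
    · exact hpz
    · show heckeOperatorBar (N' * q * q) ⟨ℓ.1, ℓ.2.1⟩ z - a ℓ.1 • z = 0
      rw [hzeig ℓ.1 ℓ.2.1 ℓ.2.2.1 ℓ.2.2.2, sub_self]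
  -- the preimage
  let h0 : ↥K × ↥K := (⟨x, by rw [hK, tm_mem_K]; exact hx⟩, ⟨y, by rw [hK, tm_mem_K]; exact hy⟩)
  have hφh0 : φ h0 = z := by rw [hφ_apply, hzxy]
  obtain ⟨w, -, hw0, hw⟩ := m59sb_exists_ker_of_image SH hSHcomm S2 φ hφS z hz0 hS2z
    (Nat.card (⊤ : AddSubgroup (↥K × ↥K))) ⊤ rfl (fun _ _ _ => AddSubgroup.mem_top _)
    ⟨h0, AddSubgroup.mem_top _, hφh0⟩
  -- one of the two components of `w` is nonzero
  have hcomp : ∀ i, S1 i w.1.1 = 0 ∧ S1 i w.2.1 = 0 := by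
    intro i
    have h1 := hw i
    have h2 : ((SK i) w.1, (SK i) w.2) = (0 : ↥K × ↥K) := h1
    rw [Prod.mk_eq_zero] at h2
    exact ⟨congrArg Subtype.val h2.1, congrArg Subtype.val h2.2⟩
  have hgood : ∀ v : JZero (N' * q), (∀ i, S1 i v = 0) → p • v = 0 ∧
      ∀ (ℓ : ℕ) (hℓ : ℓ.Prime), ¬ ℓ ∣ N' * q * q → ℓ ∉ S →
        heckeOperatorBar (N' * q) ⟨ℓ, hℓ⟩ v = a ℓ • v := by
    intro v hv
    refine ⟨hv none, fun ℓ hℓ hℓN hℓS => ?_⟩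
    have h1 := hv (some ⟨ℓ, hℓ, hℓN, hℓS⟩)
    exact sub_eq_zero.mp h1
  by_cases hw1 : w.1.1 = 0
  · have hw2 : w.2.1 ≠ 0 := by
      intro h2
      apply hw0
      exact Prod.ext (Subtype.ext hw1) (Subtype.ext h2)
    exact ⟨w.2.1, hw2, (hgood _ fun i => (hcomp i).2).1, (hgood _ fun i => (hcomp i).2).2⟩
  · exact ⟨w.1.1, hw1, (hgood _ fun i => (hcomp i).1).1, (hgood _ fun i => (hcomp i).1).2⟩

/-- **LEVEL 2 of (E-q²)**: [PULL-API] + (G12) + [TOR-SURJ] give the conclusion of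
`m59sb_CoreAt` (SinkB/Seams.lean) at `(N', q, p, A)`. -/
theorem m59sb_wire_core (pa pb : JZero (N' * q) →+ JZero (N' * q * q))
    (Tor1 : Set (JZero (N' * q * q)))
    (hP : m59sb_PullApiOf p pa pb) (hE : m59sb_G12Of p A Tor1) (hTS : m59sb_TorSurjOf p pa pb Tor1)
    (S : Finset ℕ) (a : ℕ → ℤ) (hpS : p ∈ S)
    (hnE : ∃ ℓ₀ : ℕ, ℓ₀.Prime ∧ ¬ ℓ₀ ∣ N' * q * q ∧ ℓ₀ ∉ S ∧ ¬ (p : ℤ) ∣ (ℓ₀ : ℤ) + 1 - a ℓ₀)
    (z : JZero (N' * q * q)) (hz0 : z ≠ 0) (hpz : p • z = 0)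
    (hzfix : ∀ σ ∈ A.inertiaSubgroupIn ℚ, σ • z = z)
    (hzeig : ∀ (ℓ : ℕ) (hℓ : ℓ.Prime), ¬ ℓ ∣ N' * q * q → ℓ ∉ S →
      heckeOperatorBar (N' * q * q) ⟨ℓ, hℓ⟩ z = a ℓ • z) :
    (∃ z' : JZero (N' * q), z' ≠ 0 ∧ p • z' = 0 ∧
      ∀ (ℓ : ℕ) (hℓ : ℓ.Prime), ¬ ℓ ∣ N' * q * q → ℓ ∉ S →
        heckeOperatorBar (N' * q) ⟨ℓ, hℓ⟩ z' = a ℓ • z') ∨
    (∃ z₀ : JZero N', z₀ ≠ 0 ∧ p • z₀ = 0 ∧
      ∀ (ℓ : ℕ) (hℓ : ℓ.Prime), ¬ ℓ ∣ N' * q → ℓ ∉ S →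
        heckeOperatorBar N' ⟨ℓ, hℓ⟩ z₀ = a ℓ • z₀) := by
  rcases hE S a hpS hnE z hz0 hpz hzfix hzeig with hTor | hmid | hlow
  · left
    obtain ⟨k, x, y, hx, hy, hzxy⟩ := hTS z hTor
    exact m59sb_wire_entry pa pb hP S a z hz0 hpz hzeig k x y hx hy hzxy
  · exact Or.inl hmid
  · exact Or.inr hlow

/-- **LEVEL 3 of (E-q²)**: [TAME-GEN], (G3), (F4), [MASS-ineq], (G4) give [TOR-SURJ] for the frame
(Lemma 1 + Lemma 2). -/
theorem m59sb_torSurj_of_frame (hq : q.Prime) (hqp : q ≠ p) (hqN' : ¬ q ∣ N')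
    (hA : A.LiesOverPrime q)
    (hG : m59sb_TameGen p A Fr) (h3 : m59sb_Tor3 p Fr) (hT : m59sb_Tau1 p A Fr)
    (hM : m59sb_Mass N' q p A1) (hPull : m59sb_PullTor p A Fr) :
    m59sb_TorSurj p Fr := by
  intro z hTor
  obtain ⟨c, hc⟩ := m59sb_frame_lemma1 Fr hq hqp hqN' hA hG hT hM
  obtain ⟨x, y, hx, hy, hzxy⟩ := m59sb_frame_lemma2 Fr c hc h3 hPull z hTor
  exact ⟨c + 1, x, y, hx, hy, hzxy⟩

/-- **(E-q²) at `(N', q, p, A)` from a frame whose cells hold** (levels 2 and 3 composed). -/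
theorem m59sb_core_of_frame (hq : q.Prime) (hqp : q ≠ p) (hqN' : ¬ q ∣ N')
    (hA : A.LiesOverPrime q)
    (hP : m59sb_PullApi p Fr) (hG : m59sb_TameGen p A Fr) (hE : m59sb_EisDelta p A Fr)
    (h3 : m59sb_Tor3 p Fr) (hT : m59sb_Tau1 p A Fr) (hM : m59sb_Mass N' q p A1)
    (hPull : m59sb_PullTor p A Fr)
    (S : Finset ℕ) (a : ℕ → ℤ) (hpS : p ∈ S)
    (hnE : ∃ ℓ₀ : ℕ, ℓ₀.Prime ∧ ¬ ℓ₀ ∣ N' * q * q ∧ ℓ₀ ∉ S ∧ ¬ (p : ℤ) ∣ (ℓ₀ : ℤ) + 1 - a ℓ₀)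
    (z : JZero (N' * q * q)) (hz0 : z ≠ 0) (hpz : p • z = 0)
    (hzfix : ∀ σ ∈ A.inertiaSubgroupIn ℚ, σ • z = z)
    (hzeig : ∀ (ℓ : ℕ) (hℓ : ℓ.Prime), ¬ ℓ ∣ N' * q * q → ℓ ∉ S →
      heckeOperatorBar (N' * q * q) ⟨ℓ, hℓ⟩ z = a ℓ • z) :
    (∃ z' : JZero (N' * q), z' ≠ 0 ∧ p • z' = 0 ∧
      ∀ (ℓ : ℕ) (hℓ : ℓ.Prime), ¬ ℓ ∣ N' * q * q → ℓ ∉ S →
        heckeOperatorBar (N' * q) ⟨ℓ, hℓ⟩ z' = a ℓ • z') ∨
    (∃ z₀ : JZero N', z₀ ≠ 0 ∧ p • z₀ = 0 ∧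
      ∀ (ℓ : ℕ) (hℓ : ℓ.Prime), ¬ ℓ ∣ N' * q → ℓ ∉ S →
        heckeOperatorBar N' ⟨ℓ, hℓ⟩ z₀ = a ℓ • z₀) :=
  m59sb_wire_core Fr.pa Fr.pb (Fr.Tor 1) hP hE
    (m59sb_torSurj_of_frame Fr hq hqp hqN' hA hG h3 hT hM hPull) S a hpS hnE z hz0 hpz hzfix hzeig

end Main

end Fermat.Agent.M59
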