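/-
M59 / Sink B (architects helper15 + helper1; ruling #48, table #5259 row B0): LEVEL 1.
Prefix `m59sb_`.

Formalises ENTRY / EXIT of findings #5163 + #5186 (accepted #5168, #5188), with (G2') of #5177.

* `m59sb_Core_stmt`  : **(E-q²) in Jacobian vocabulary**.  `q ∤ N'` prime, `p` an odd prime `≠ q`,
  `A` a valuation ring of `ℚ̄` over `q`, `S ∋ p` a finite set, `a : ℕ → ℤ` a system of eigenvalues
  which is NON-EISENSTEIN at one prime `ℓ₀ ∤ N' q q`, `ℓ₀ ∉ S`.  A nonzero `z ∈ J₀(N' q q)[p]` fixed by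
  the inertia group of `A` with `T_ℓ z = a_ℓ z` (`ℓ ∤ N' q q`, `ℓ ∉ S`) forces a nonzero
  `z' ∈ J₀(N' q)[p]` with `T_ℓ z' = a_ℓ z'` (`ℓ ∤ N' q`, `ℓ ∉ S`).
  RIGIDITY (helper14 #5258, helper12 #5268): for odd `q` the statement carries `4 ∣ N'` (the count
  [MASS-ineq] is derivable from main only when `T_Q = 1`).  No such hypothesis for `q = 2`.
* `m59sb_Eq2R_stmt`  : box B of TOP (`m59t_Eq2_stmt`) RESTRICTED to `q ≠ 2 → 4 ∣ M`.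
* **`m59sb_eq2R_of : m59sb_Core_stmt → m59sb_Eq2R_stmt`** PROVED HERE from main:
  the copy of `W[p]` in `J₀(M)[p]` (`s44b_exists_eigenpoint`, `s44be_main`, `s44b_hCH`,
  `s44bm_copy`: all `W`-generic), the inertia-fixed point of `W[p]` (`s58m_fixSeam`, (S-FIX)),
  the non-Eisenstein prime (`lrv_exists_nonEis_prime`), and the exit `s44c_char` + `s44c_lift`.

SECOND FORM (after `M59/Top/NormOf4.lean`, chief #5313; THE SEAM THE CELLS ARE BUILT AGAINST):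
* `m59sb_CoreAt N' q p` : (E-q²) at `(N', q, p)` in Jacobian vocabulary with the DISJUNCTIVE
  conclusion: a nonzero eigenclass of `J₀(N' q)[p]` OR a nonzero eigenclass of `J₀(N')[p]` (the branch
  of the residue class (G2'), where the level may drop by `q q` at once);
* `m59sb_CoreOdd_stmt` : `m59sb_CoreAt` for `q` odd at the RIGID levels `4 ∣ N'`;
* `m59sb_CoreTwoAt p` : `m59sb_CoreAt N' 2 p` for `N'` odd squarefree with a prime `r ∣ N'`,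
  `r ≡ 11 (12)` (no elliptic points in any characteristic); `m59sb_CoreTwo_stmt` (all odd `p`),
  `m59sb_CoreTwo5_stmt` (`p = 5`; chief #5370: `p = 3` goes through [E22-3]);
  `m59sb_Eq2TwoAt p`, **`m59sb_eq2two5_of : m59sb_CoreTwo5_stmt → m59sb_Eq2TwoAt 5`**,
  **`m59sb_eq2two_of_at : m59sb_Eq2TwoAt 3 → m59sb_Eq2TwoAt 5 → m59t_Eq2Two_stmt`**;
* **`m59sb_eq2odd_of : m59sb_CoreOdd_stmt → m59t_Eq2Odd_stmt`** and
  **`m59sb_eq2two_of : m59sb_CoreTwo_stmt → m59t_Eq2Two_stmt`** PROVED HERE (the exit of the second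
  branch: `s44c_char` + `s44c_lift` at level `N'`, then the EIGENFORM is old-lifted to level `N' q`
  by `s58o_lift`; `R(N')` itself is not claimed: it would ask the congruence at `ℓ = q`).
-/
import Mathlib
import Fermat.Agent.M59.Top.Seams
import Fermat.Agent.M59.Top.NormOf4
import Fermat.Agent.S58.OldLift
import Fermat.Agent.S44.BLR.Main
import Fermat.Agent.S44.Old0.Char
import Fermat.Agent.S44.Old0.Lift
import Fermat.Agent.S58.Mult.Fix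
import Fermat.Agent.S13.Global.UnramifiedOne

set_option autoImplicit false
set_option linter.unusedSectionVars false
set_option linter.unusedVariables false
set_option linter.style.haveILetI false
set_option synthInstance.maxHeartbeats 400000
set_option maxHeartbeats 1000000

noncomputable section

namespace Fermat.Agent.M59

open Fermat.Agent.JT3 Fermat.Agent.S58 Fermat.Agent.S44 Fermat.Agent.LR Fermat.Agent.S13
  ModularCurve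
open WeierstrassCurve WeierstrassCurve.Affine WeierstrassCurve.Affine.Point
open scoped WeierstrassCurve.Affine

local notation "Qb" => AlgebraicClosure ℚ
local notation "GQ" => (AlgebraicClosure ℚ ≃ₐ[ℚ] AlgebraicClosure ℚ)

/-- **(E-q²) in Jacobian vocabulary.** -/
def m59sb_Core_stmt : Prop :=
  ∀ (N' q p : ℕ) [NeZero N'] [NeZero q] [Fact p.Prime], q.Prime → p ≠ 2 → q ≠ p → ¬ q ∣ N' →
    (q ≠ 2 → 4 ∣ N') →
    ∀ A : ValuationSubring Qb, A.LiesOverPrime q →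
    ∀ (S : Finset ℕ) (a : ℕ → ℤ), p ∈ S →
      (∃ ℓ₀ : ℕ, ℓ₀.Prime ∧ ¬ ℓ₀ ∣ N' * q * q ∧ ℓ₀ ∉ S ∧ ¬ (p : ℤ) ∣ (ℓ₀ : ℤ) + 1 - a ℓ₀) →
      ∀ z : JZero (N' * q * q), z ≠ 0 → p • z = 0 →
        (∀ σ ∈ A.inertiaSubgroupIn ℚ, σ • z = z) →
        (∀ (ℓ : ℕ) (hℓ : ℓ.Prime), ¬ ℓ ∣ N' * q * q → ℓ ∉ S →
          heckeOperatorBar (N' * q * q) ⟨ℓ, hℓ⟩ z = a ℓ • z) →
        ∃ z' : JZero (N' * q), z' ≠ 0 ∧ p • z' = 0 ∧
          ∀ (ℓ : ℕ) (hℓ : ℓ.Prime), ¬ ℓ ∣ N' * q → ℓ ∉ S →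
            heckeOperatorBar (N' * q) ⟨ℓ, hℓ⟩ z' = a ℓ • z'

/-- box B of TOP restricted to the rigid levels: `q` odd ⟹ `4 ∣ M`. -/
def m59sb_Eq2R_stmt : Prop :=
  ∀ p : ℕ, p = 3 ∨ p = 5 → ∀ W : WeierstrassCurve ℤ, W.Δ ≠ 0 → W.IsSemistableModel →
    W.ModRepIsIrreducible p →
    ∀ M q : ℕ, 0 < M → q.Prime → q ≠ p → q ^ 2 ∣ M → ¬ q ^ 3 ∣ M → (q ≠ 2 → 4 ∣ M) →
      W.IsResiduallyModularOfLevel p M → W.IsResiduallyModularOfLevel p (M / q)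

/-- **EXIT**: a nonzero eigenpoint of `J₀(M)[p]` with the eigenvalues `a_ℓ(W)` gives residual
modularity of level `M` (`W`-generic form of `s44c_level_of_eigen`). -/
theorem m59sb_exit (W : WeierstrassCurve ℤ) {p : ℕ} (hp : p.Prime) (M : ℕ) [NeZero M]
    (S : Finset ℕ)
    (hS : ∀ ℓ : ℕ, ℓ.Prime → W.IsGoodPrimeFor ℓ → ¬ ℓ ∣ M → ℓ ≠ p → ℓ ∉ S)
    (z : JZero M) (hz0 : z ≠ 0) (hpz : p • z = 0)
    (heig : ∀ (ℓ : ℕ) (hℓ : ℓ.Prime), ¬ ℓ ∣ M → ℓ ∉ S →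
      heckeOperatorBar M ⟨ℓ, hℓ⟩ z = (W.apOfModel ℓ) • z) :
    W.IsResiduallyModularOfLevel p M := by
  haveI : Fact p.Prime := ⟨hp⟩
  obtain ⟨v, hv0, hv⟩ := s44c_char M p z hz0 hpz
  obtain ⟨g, 𝔪', hg, hmax, hpm, hcong⟩ := s44c_lift hp
    {ℓ : ℕ | ℓ ∉ S} (fun ℓ => W.apOfModel ℓ) v hv0
    (fun ℓ hℓ hℓM hG => hv ℓ hℓ hℓM (W.apOfModel ℓ) (heig ℓ hℓ hℓM hG))
  exact ⟨g, 𝔪', hg, hmax, hpm, fun ℓ hℓ hgood hℓM hℓp =>
    hcong ℓ hℓ hℓM (hS ℓ hℓ hgood hℓM hℓp)⟩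

/-- **ENTRY**: from residual modularity of level `N` to a nonzero point of `J₀(N)[p]`, fixed by the
inertia group of a place `A` over a prime `q ≠ p` of semistable reduction, on which
`T_ℓ = a_ℓ(W)` for the primes `ℓ ∤ N`, `ℓ ∉ S := {p} ∪ {primes of N} ∪ {primes of Δ}`. -/
theorem m59sb_entry (W : WeierstrassCurve ℤ) (hΔ : W.Δ ≠ 0) (hW : W.IsSemistableModel)
    {p : ℕ} (hp : p.Prime) (hp2 : p ≠ 2) (hirr : W.ModRepIsIrreducible p) (N : ℕ) [NeZero N]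
    (hR : W.IsResiduallyModularOfLevel p N) {q : ℕ} (hq : q.Prime) (hqp : q ≠ p)
    (A : ValuationSubring Qb) (hA : A.LiesOverPrime q) :
    ∃ z : JZero N, z ≠ 0 ∧ p • z = 0 ∧ (∀ σ ∈ A.inertiaSubgroupIn ℚ, σ • z = z) ∧
      ∀ (ℓ : ℕ) (hℓ : ℓ.Prime), ¬ ℓ ∣ N →
        ℓ ∉ insert p (N.primeFactors ∪ W.Δ.natAbs.primeFactors) →
        heckeOperatorBar N ⟨ℓ, hℓ⟩ z = (W.apOfModel ℓ) • z := by
  classical
  obtain ⟨f, 𝔪, hf, h𝔪, hp𝔪, hcong⟩ := hR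
  haveI : Fact p.Prime := ⟨hp⟩
  have hN0 : N ≠ 0 := NeZero.ne N
  set S : Finset ℕ := insert p (N.primeFactors ∪ W.Δ.natAbs.primeFactors) with hS
  have hpS : p ∈ S := Finset.mem_insert_self _ _
  have hNS : ∀ r : ℕ, r.Prime → r ∣ N → r ∈ S := fun r hr hrN =>
    Finset.mem_insert_of_mem (Finset.mem_union_left _ (Nat.mem_primeFactors.mpr ⟨hr, hrN, hN0⟩))
  have hbad : ∀ ℓ : ℕ, ℓ.Prime → ℓ ∉ S → W.IsGoodPrimeFor ℓ ∧ ¬ ℓ ∣ N ∧ ℓ ≠ p := by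
    intro ℓ hℓ hℓS
    refine ⟨fun h => hℓS ?_, fun h => hℓS (hNS ℓ hℓ h), fun h => hℓS (h ▸ hpS)⟩
    refine Finset.mem_insert_of_mem (Finset.mem_union_right _ (Nat.mem_primeFactors.mpr
      ⟨hℓ, Int.natCast_dvd.mp h, ?_⟩))
    exact Int.natAbs_ne_zero.mpr hΔ
  set a : ℕ → ℤ := fun ℓ => W.apOfModel ℓ with ha
  -- the nonzero eigenpoint
  obtain ⟨z₀, hz₀, hpz₀, hTz₀⟩ := s44b_exists_eigenpoint N p S hNS hf 𝔪 h𝔪 hp𝔪 a
    (fun ℓ hℓ hℓN hℓS => hcong ℓ hℓ (hbad ℓ hℓ hℓS).1 hℓN (hbad ℓ hℓ hℓS).2.2)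
  haveI : Nontrivial ↥(s44b_ME N p S a) :=
    ⟨⟨⟨z₀, hpz₀, hTz₀⟩, 0, fun h => hz₀ (congrArg Subtype.val h)⟩⟩
  -- the E-side
  obtain ⟨hfrobV, hspan⟩ := s44be_main W hΔ p hp2 hirr hf 𝔪 h𝔪 hp𝔪 hcong
  have hΔQ : ((s58_WQ W)⁄s58_Qb).Δ ≠ 0 := by
    show ((W.map (Int.castRingHom ℚ)).map (algebraMap ℚ s58_Qb)).Δ ≠ 0
    rw [WeierstrassCurve.map_Δ, WeierstrassCurve.map_Δ]
    simpa using hΔ
  have hodd : Odd p := hp.odd_of_ne_two hp2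
  haveI : Finite (Submodule.torsionBy ℤ ((s58_WQ W)⁄s58_Qb).Point p) :=
    ld_finite_torsionBy (s58_WQ W) hΔQ hodd
  have hlevV : GaloisFactorsThroughFiniteLevel
      (galoisRepModuleEnd (K := s58_Qb) ℚ (s58_WQ W) p) := prs_torsion_level (s58_WQ W) p
  have hCH := s44b_hCH (N := N) (p := p) (S := S) (a := a) hpS hNS
    (galoisRepModuleEnd (K := s58_Qb) ℚ (s58_WQ W) p) hlevV
    (fun ℓ hℓ hℓN hℓS A hA τ hτ =>
      hfrobV ℓ hℓ (hbad ℓ hℓ hℓS).1 hℓN (hbad ℓ hℓ hℓS).2.2 A hA τ hτ)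
  have hfr : Module.finrank (ZMod p) (Submodule.torsionBy ℤ ((s58_WQ W)⁄s58_Qb).Point p) = 2 :=
    ld_finrank_torsionBy (K := s58_Qb) (s58_WQ W) hΔQ hp2
  haveI : Module.Finite (ZMod p) (Submodule.torsionBy ℤ ((s58_WQ W)⁄s58_Qb).Point p) :=
    Module.finite_of_finrank_pos (by rw [hfr]; norm_num)
  obtain ⟨j, hjinj, hjeq⟩ := s44bm_copy
    (Module.finBasisOfFinrankEq (ZMod p) _ hfr)
    (galoisRepModuleEnd (K := s58_Qb) ℚ (s58_WQ W) p) (s44b_alpha N p S a) hspan hCH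
  -- the inertia-fixed point of `W[p]`
  obtain ⟨P, hP1, hP0, hPfix⟩ := s58m_fixSeam W hW hΔ p q hp hp2 hq hqp A hA 0
  rw [zero_add, pow_one] at hP1
  rw [pow_zero, one_smul] at hP0
  have hPmem : P ∈ Submodule.torsionBy ℤ ((s58_WQ W)⁄s58_Qb).Point (p : ℤ) := by
    rw [Submodule.mem_torsionBy_iff, natCast_zsmul]
    exact hP1
  set x : Submodule.torsionBy ℤ ((s58_WQ W)⁄s58_Qb).Point (p : ℤ) := ⟨P, hPmem⟩ with hx
  have hx0 : x ≠ 0 := fun h => hP0 (congrArg Subtype.val h)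
  have hxfix : ∀ σ ∈ A.inertiaSubgroupIn ℚ, σ • x = x := fun σ hσ =>
    Subtype.ext (hPfix σ hσ)
  refine ⟨((j x : ↥(s44b_ME N p S a)) : JZero N), ?_, (j x).2.1, ?_, fun ℓ hℓ hℓN hℓS =>
    (j x).2.2 ℓ hℓ hℓN hℓS⟩
  · intro h
    apply hx0
    apply hjinj
    rw [_root_.map_zero]
    exact Subtype.ext h
  · intro σ hσ
    rw [← s44b_alpha_apply, ← hjeq]
    show ((j (σ • x) : ↥(s44b_ME N p S a)) : JZero N) = _
    rw [hxfix σ hσ]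

/-- **Box B (restricted to the rigid levels) from (E-q²).** -/
theorem m59sb_eq2R_of (hC : m59sb_Core_stmt) : m59sb_Eq2R_stmt := by
  classical
  intro p hp35 W hΔ hW hirr M q hM hq hqp hq2 hq3 hrig hR
  have hp : p.Prime := by rcases hp35 with rfl | rfl <;> norm_num
  have hp2 : p ≠ 2 := by rcases hp35 with rfl | rfl <;> norm_num
  haveI : Fact p.Prime := ⟨hp⟩
  obtain ⟨N', rfl⟩ : ∃ N' : ℕ, M = N' * q * q := by
    obtain ⟨c, rfl⟩ := hq2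
    exact ⟨c, by ring⟩
  have hN'0 : N' ≠ 0 := by
    rintro rfl
    simp at hM
  have hqN' : ¬ q ∣ N' := by
    rintro ⟨c, rfl⟩
    exact hq3 ⟨c, by ring⟩
  haveI : NeZero N' := ⟨hN'0⟩
  haveI : NeZero q := ⟨hq.ne_zero⟩
  have hdiv : N' * q * q / q = N' * q := Nat.mul_div_cancel _ hq.pos
  rw [hdiv]
  have hrig' : q ≠ 2 → 4 ∣ N' := by
    intro hq2'
    have h4 : 4 ∣ N' * (q * q) := by rw [← mul_assoc]; exact hrig hq2'
    have hodd : ¬ 2 ∣ q := fun h => hq2' ((Nat.prime_dvd_prime_iff_eq Nat.prime_two hq).mp h).symm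
    have hcop : Nat.Coprime 4 (q * q) := by
      have h2q : Nat.Coprime 2 q := (Nat.Prime.coprime_iff_not_dvd Nat.prime_two).mpr hodd
      have : Nat.Coprime (2 ^ 2) (q * q) := Nat.Coprime.pow_left 2 (Nat.Coprime.mul_right h2q h2q)
      simpa using this
    exact hcop.dvd_of_dvd_mul_right h4
  -- a place over `q`
  obtain ⟨A, hA⟩ := g1_exists_liesOver q hq
  obtain ⟨z, hz0, hpz, hzfix, hzeig⟩ :=
    m59sb_entry W hΔ hW hp hp2 hirr (N' * q * q) hR hq hqp A hA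
  set S : Finset ℕ :=
    insert p ((N' * q * q).primeFactors ∪ W.Δ.natAbs.primeFactors) with hS
  have hpS : p ∈ S := Finset.mem_insert_self _ _
  have hM0 : N' * q * q ≠ 0 := hM.ne'
  have hNS : ∀ r : ℕ, r.Prime → r ∣ N' * q * q → r ∈ S := fun r hr hrN =>
    Finset.mem_insert_of_mem (Finset.mem_union_left _ (Nat.mem_primeFactors.mpr ⟨hr, hrN, hM0⟩))
  -- the non-Eisenstein prime
  obtain ⟨ℓ₀, hℓ₀, hℓ₀g, hℓ₀S, hℓ₀p, hℓ₀e⟩ := lrv_exists_nonEis_prime W hΔ hp hp2 hirr S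
  obtain ⟨z', hz'0, hpz', hz'eig⟩ := hC N' q p hq hp2 hqp hqN' hrig' A hA S
    (fun ℓ => W.apOfModel ℓ) hpS
    ⟨ℓ₀, hℓ₀, fun h => hℓ₀S (hNS ℓ₀ hℓ₀ h), hℓ₀S, hℓ₀e⟩ z hz0 hpz hzfix hzeig
  refine m59sb_exit W hp (N' * q) S ?_ z' hz'0 hpz' hz'eig
  intro ℓ hℓ hgood hℓM hℓp hℓS
  rcases Finset.mem_insert.mp hℓS with h | h
  · exact hℓp h
  · rcases Finset.mem_union.mp h with h | h
    · have h1 : ℓ ∣ N' * q * q := Nat.dvd_of_mem_primeFactors h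
      rcases (Nat.Prime.dvd_mul hℓ).mp h1 with h2 | h2
      · exact hℓM h2
      · exact hℓM (dvd_mul_of_dvd_right h2 N')
    · exact hgood (Int.natCast_dvd.mpr (Nat.dvd_of_mem_primeFactors h))

/-! ### second form: rigidifier + disjunctive conclusion -/

/-- **(E-q²) at `(N', q, p)` in Jacobian vocabulary** (disjunctive conclusion: the level drops to
`N' q` or to `N'`). -/
def m59sb_CoreAt (N' q p : ℕ) [NeZero N'] [NeZero q] [Fact p.Prime] : Prop :=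
  ∀ A : ValuationSubring Qb, A.LiesOverPrime q →
    ∀ (S : Finset ℕ) (a : ℕ → ℤ), p ∈ S →
      (∃ ℓ₀ : ℕ, ℓ₀.Prime ∧ ¬ ℓ₀ ∣ N' * q * q ∧ ℓ₀ ∉ S ∧ ¬ (p : ℤ) ∣ (ℓ₀ : ℤ) + 1 - a ℓ₀) →
      ∀ z : JZero (N' * q * q), z ≠ 0 → p • z = 0 →
        (∀ σ ∈ A.inertiaSubgroupIn ℚ, σ • z = z) →
        (∀ (ℓ : ℕ) (hℓ : ℓ.Prime), ¬ ℓ ∣ N' * q * q → ℓ ∉ S →
          heckeOperatorBar (N' * q * q) ⟨ℓ, hℓ⟩ z = a ℓ • z) →
        (∃ z' : JZero (N' * q), z' ≠ 0 ∧ p • z' = 0 ∧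
          ∀ (ℓ : ℕ) (hℓ : ℓ.Prime), ¬ ℓ ∣ N' * q * q → ℓ ∉ S →
            heckeOperatorBar (N' * q) ⟨ℓ, hℓ⟩ z' = a ℓ • z') ∨
        (∃ z₀ : JZero N', z₀ ≠ 0 ∧ p • z₀ = 0 ∧
          ∀ (ℓ : ℕ) (hℓ : ℓ.Prime), ¬ ℓ ∣ N' * q → ℓ ∉ S →
            heckeOperatorBar N' ⟨ℓ, hℓ⟩ z₀ = a ℓ • z₀)

/-- **(E-q²), `q` odd, rigid levels `4 ∣ N'`** (the core of `m59t_Eq2Odd_stmt`). -/
def m59sb_CoreOdd_stmt : Prop :=
  ∀ (N' q p : ℕ) [NeZero N'] [NeZero q] [Fact p.Prime], q.Prime → p ≠ 2 → q ≠ p → q ≠ 2 →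
    ¬ q ∣ N' → 4 ∣ N' → m59sb_CoreAt N' q p

/-- **(E-2²) at `p`, `N'` odd squarefree with a rigidifying prime `r ∣ N'`, `r ≡ 11 (12)`**. -/
def m59sb_CoreTwoAt (p : ℕ) [Fact p.Prime] : Prop :=
  ∀ (N' : ℕ) [NeZero N'], ¬ 2 ∣ N' → Squarefree N' →
    (∃ r : ℕ, r.Prime ∧ r % 12 = 11 ∧ r ∣ N') → m59sb_CoreAt N' 2 p

/-- **(E-2²) for every odd `p`** (the core of `m59t_Eq2Two_stmt`). -/
def m59sb_CoreTwo_stmt : Prop :=
  ∀ (p : ℕ) [Fact p.Prime], p ≠ 2 → m59sb_CoreTwoAt p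

/-- **(E-2²) at `p = 5`** (chief #5370: `p = 3` goes through the cell [E22-3], `M59/SinkB/E223`). -/
def m59sb_CoreTwo5_stmt : Prop :=
  haveI : Fact (Nat.Prime 5) := ⟨by norm_num⟩
  m59sb_CoreTwoAt 5

/-- box B of TOP, `q = 2`, at one `p` (`m59t_Eq2Two_stmt` is `∀ p, p = 3 ∨ p = 5 → m59sb_Eq2TwoAt p`). -/
def m59sb_Eq2TwoAt (p : ℕ) : Prop :=
  ∀ W : WeierstrassCurve ℤ, W.Δ ≠ 0 → W.IsSemistableModel → W.ModRepIsIrreducible p →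
    ∀ M' r : ℕ, Squarefree M' → 2 ∣ M' → r.Prime → r % 12 = 11 → r % p ≠ 1 → r ≠ p → r ∣ M' →
      W.IsResiduallyModularOfLevel p (2 * M') → W.IsResiduallyModularOfLevel p M'

/-- **EXIT of the second branch**: a nonzero eigenpoint of `J₀(N')[p]` with the eigenvalues
`a_ℓ(W)` at the primes `ℓ ∤ N' q`, `ℓ ∉ S`, gives residual modularity of level `N' q` (the eigenform
of level `N'` is old-lifted, `s58o_lift`). -/
theorem m59sb_exit_low (W : WeierstrassCurve ℤ) {p : ℕ} (hp : p.Prime) (N' q : ℕ) [NeZero N']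
    (hq0 : q ≠ 0) (S : Finset ℕ)
    (hS : ∀ ℓ : ℕ, ℓ.Prime → W.IsGoodPrimeFor ℓ → ¬ ℓ ∣ N' * q → ℓ ≠ p → ℓ ∉ S)
    (z : JZero N') (hz0 : z ≠ 0) (hpz : p • z = 0)
    (heig : ∀ (ℓ : ℕ) (hℓ : ℓ.Prime), ¬ ℓ ∣ N' * q → ℓ ∉ S →
      heckeOperatorBar N' ⟨ℓ, hℓ⟩ z = (W.apOfModel ℓ) • z) :
    W.IsResiduallyModularOfLevel p (N' * q) := by
  haveI : Fact p.Prime := ⟨hp⟩
  obtain ⟨v, hv0, hv⟩ := s44c_char N' p z hz0 hpz
  obtain ⟨g, 𝔪', hg, hmax, hpm, hcong⟩ := s44c_lift hp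
    {ℓ : ℕ | ℓ ∉ S ∧ ¬ ℓ ∣ N' * q} (fun ℓ => W.apOfModel ℓ) v hv0
    (fun ℓ hℓ hℓM hG => hv ℓ hℓ hℓM (W.apOfModel ℓ) (heig ℓ hℓ hG.2 hG.1))
  have hL : N' * q ≠ 0 := Nat.mul_ne_zero (NeZero.ne N') hq0
  obtain ⟨g', hg', hcoef⟩ := Fermat.Agent.S58.s58o_lift (dvd_mul_right N' q) hL hg
  refine ⟨g', 𝔪', hg', hmax, hpm, fun ℓ hℓ hgood hℓL hℓp => ?_⟩
  have hℓN' : ¬ ℓ ∣ N' := fun h => hℓL (dvd_mul_of_dvd_left h q)
  obtain ⟨b, hb, hb𝔪⟩ := hcong ℓ hℓ hℓN' ⟨hS ℓ hℓ hgood hℓL hℓp, hℓL⟩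
  refine ⟨b, ?_, hb𝔪⟩
  rw [hb, hcoef ℓ (fun r hr hrL _ hrℓ => ?_)]
  have hre : r = ℓ := (Nat.prime_dvd_prime_iff_eq hr hℓ).mp hrℓ
  exact hℓL (hre ▸ hrL)

/-- **one step of (E-q²)** from the core at `(N', q, p)`: `R(N' q q) ⟹ R(N' q)`. -/
theorem m59sb_step_at (p : ℕ) (hp35 : p = 3 ∨ p = 5)
    (W : WeierstrassCurve ℤ) (hΔ : W.Δ ≠ 0) (hW : W.IsSemistableModel)
    (hirr : W.ModRepIsIrreducible p) (N' q : ℕ) [NeZero N'] [NeZero q] [Fact p.Prime]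
    (hq : q.Prime) (hqp : q ≠ p) (hC : m59sb_CoreAt N' q p)
    (hR : W.IsResiduallyModularOfLevel p (N' * q * q)) :
    W.IsResiduallyModularOfLevel p (N' * q) := by
  classical
  have hp : p.Prime := by rcases hp35 with rfl | rfl <;> norm_num
  have hp2 : p ≠ 2 := by rcases hp35 with rfl | rfl <;> norm_num
  -- a place over `q`
  obtain ⟨A, hA⟩ := g1_exists_liesOver q hq
  obtain ⟨z, hz0, hpz, hzfix, hzeig⟩ :=
    m59sb_entry W hΔ hW hp hp2 hirr (N' * q * q) hR hq hqp A hA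
  set S : Finset ℕ :=
    insert p ((N' * q * q).primeFactors ∪ W.Δ.natAbs.primeFactors) with hS
  have hpS : p ∈ S := Finset.mem_insert_self _ _
  have hM0 : N' * q * q ≠ 0 := NeZero.ne _
  have hNS : ∀ r : ℕ, r.Prime → r ∣ N' * q * q → r ∈ S := fun r hr hrN =>
    Finset.mem_insert_of_mem (Finset.mem_union_left _ (Nat.mem_primeFactors.mpr ⟨hr, hrN, hM0⟩))
  have hSgood : ∀ ℓ : ℕ, ℓ.Prime → W.IsGoodPrimeFor ℓ → ¬ ℓ ∣ N' * q → ℓ ≠ p → ℓ ∉ S := by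
    intro ℓ hℓ hgood hℓM hℓp hℓS
    rcases Finset.mem_insert.mp hℓS with h | h
    · exact hℓp h
    · rcases Finset.mem_union.mp h with h | h
      · have h1 : ℓ ∣ N' * q * q := Nat.dvd_of_mem_primeFactors h
        rcases (Nat.Prime.dvd_mul hℓ).mp h1 with h2 | h2
        · exact hℓM h2
        · exact hℓM (dvd_mul_of_dvd_right h2 N')
      · exact hgood (Int.natCast_dvd.mpr (Nat.dvd_of_mem_primeFactors h))
  -- the non-Eisenstein prime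
  obtain ⟨ℓ₀, hℓ₀, hℓ₀g, hℓ₀S, hℓ₀p, hℓ₀e⟩ := lrv_exists_nonEis_prime W hΔ hp hp2 hirr S
  rcases hC A hA S (fun ℓ => W.apOfModel ℓ) hpS
    ⟨ℓ₀, hℓ₀, fun h => hℓ₀S (hNS ℓ₀ hℓ₀ h), hℓ₀S, hℓ₀e⟩ z hz0 hpz hzfix hzeig with
    ⟨z', hz'0, hpz', hz'eig⟩ | ⟨z₀, hz₀0, hpz₀, hz₀eig⟩
  · refine m59sb_exit W hp (N' * q) S hSgood z' hz'0 hpz' (fun ℓ hℓ hℓM hℓS => ?_)
    refine hz'eig ℓ hℓ (fun h => ?_) hℓS
    rcases (Nat.Prime.dvd_mul hℓ).mp h with h2 | h2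
    · exact hℓM h2
    · exact hℓM (dvd_mul_of_dvd_right h2 N')
  · exact m59sb_exit_low W hp N' q hq.ne_zero S hSgood z₀ hz₀0 hpz₀ hz₀eig

/-- **Box B, odd `q` (`m59t_Eq2Odd_stmt` of `M59/Top/NormOf4.lean`), from its core.** -/
theorem m59sb_eq2odd_of (hC : m59sb_CoreOdd_stmt) : m59t_Eq2Odd_stmt := by
  intro p hp35 W hΔ hW hirr M q hM hq hqp hq2ne hq2 hq3 h4 h8 hR
  have hp : p.Prime := by rcases hp35 with rfl | rfl <;> norm_num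
  have hp2 : p ≠ 2 := by rcases hp35 with rfl | rfl <;> norm_num
  obtain ⟨N', rfl⟩ : ∃ N' : ℕ, M = N' * q * q := by
    obtain ⟨c, rfl⟩ := hq2
    exact ⟨c, by ring⟩
  have hN'0 : N' ≠ 0 := by
    rintro rfl
    simp at hM
  have hqN' : ¬ q ∣ N' := by
    rintro ⟨c, rfl⟩
    exact hq3 ⟨c, by ring⟩
  have hdiv : N' * q * q / q = N' * q := Nat.mul_div_cancel _ hq.pos
  rw [hdiv]
  have hrig : 4 ∣ N' := by
    have h4' : 4 ∣ N' * (q * q) := by rw [← mul_assoc]; exact h4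
    have hodd : ¬ 2 ∣ q := fun h => hq2ne ((Nat.prime_dvd_prime_iff_eq Nat.prime_two hq).mp h).symm
    have hcop : Nat.Coprime 4 (q * q) := by
      have h2q : Nat.Coprime 2 q := (Nat.Prime.coprime_iff_not_dvd Nat.prime_two).mpr hodd
      have : Nat.Coprime (2 ^ 2) (q * q) := Nat.Coprime.pow_left 2 (Nat.Coprime.mul_right h2q h2q)
      simpa using this
    exact hcop.dvd_of_dvd_mul_right h4'
  haveI : Fact p.Prime := ⟨hp⟩
  haveI : NeZero N' := ⟨hN'0⟩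
  haveI : NeZero q := ⟨hq.ne_zero⟩
  exact m59sb_step_at p hp35 W hΔ hW hirr N' q hq hqp
    (hC N' q p hq hp2 hqp hq2ne hqN' hrig) hR

/-- **Box B, `q = 2`, at one `p ∈ {3, 5}`, from its core at `p`.** -/
theorem m59sb_eq2twoAt_of (p : ℕ) (hp35 : p = 3 ∨ p = 5) [Fact p.Prime]
    (hC : m59sb_CoreTwoAt p) : m59sb_Eq2TwoAt p := by
  intro W hΔ hW hirr M' r hsq h2 hr hr12 hrp hrne hrM' hR
  have hp2 : p ≠ 2 := by rcases hp35 with rfl | rfl <;> norm_num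
  obtain ⟨N', rfl⟩ := h2
  have hN'0 : N' ≠ 0 := by
    rintro rfl
    simp at hsq
  have h2N' : ¬ 2 ∣ N' := by
    rintro ⟨c, rfl⟩
    exact (Nat.squarefree_iff_prime_squarefree.mp hsq) 2 Nat.prime_two ⟨c, by ring⟩
  have hsqN' : Squarefree N' := hsq.squarefree_of_dvd (dvd_mul_left N' 2)
  have hr2 : r ≠ 2 := by
    rintro rfl
    norm_num at hr12
  have hrN' : r ∣ N' := by
    rcases (Nat.Prime.dvd_mul hr).mp hrM' with h | h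
    · exact absurd ((Nat.prime_dvd_prime_iff_eq hr Nat.prime_two).mp h) hr2
    · exact h
  have hR' : W.IsResiduallyModularOfLevel p (N' * 2 * 2) := by
    have : N' * 2 * 2 = 2 * (2 * N') := by ring
    rw [this]
    exact hR
  haveI : NeZero N' := ⟨hN'0⟩
  have h := m59sb_step_at p hp35 W hΔ hW hirr N' 2 Nat.prime_two (Ne.symm hp2)
    (hC N' h2N' hsqN' ⟨r, hr, hr12, hrN'⟩) hR'
  rwa [mul_comm N' 2] at h

/-- **Box B, `q = 2`, at `p = 5`, from `m59sb_CoreTwo5_stmt`.** -/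
theorem m59sb_eq2two5_of (hC : m59sb_CoreTwo5_stmt) : m59sb_Eq2TwoAt 5 := by
  haveI h5 : Fact (Nat.Prime 5) := ⟨by norm_num⟩
  exact m59sb_eq2twoAt_of 5 (Or.inr rfl) hC

/-- the glue of the two primes: `m59t_Eq2Two_stmt` from its instances at `p = 3` and `p = 5`. -/
theorem m59sb_eq2two_of_at (h3 : m59sb_Eq2TwoAt 3) (h5 : m59sb_Eq2TwoAt 5) :
    m59t_Eq2Two_stmt := by
  intro p hp35
  rcases hp35 with rfl | rfl
  · exact h3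
  · exact h5

/-- **Box B, `q = 2` (`m59t_Eq2Two_stmt` of `M59/Top/NormOf4.lean`), from its core at every odd
`p`.** -/
theorem m59sb_eq2two_of (hC : m59sb_CoreTwo_stmt) : m59t_Eq2Two_stmt := by
  haveI h3 : Fact (Nat.Prime 3) := ⟨by norm_num⟩
  haveI h5 : Fact (Nat.Prime 5) := ⟨by norm_num⟩
  exact m59sb_eq2two_of_at
    (m59sb_eq2twoAt_of 3 (Or.inl rfl) (hC 3 (by norm_num)))
    (m59sb_eq2twoAt_of 5 (Or.inr rfl) (hC 5 (by norm_num)))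

end Fermat.Agent.M59
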