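/-
M59 / Sink B (architects helper15 + helper1): THE WIRING OF THE LEVELS.  Prefix `m59sb_`.

ODD `q` (Legendre vocabulary; concrete objects of `SinkB/Defs.lean`, helper1):
* **`m59sb_coreOdd_of_cells : m59sb_Pull_stmt → m59sb_G12_stmt → m59sb_TorSurj_stmt →
  m59sb_CoreOdd_stmt`** (LEVEL 2 ⟹ LEVEL 1; `m59sb_wire_core` of `SinkB/Frame.lean` with
  `pa, pb` of the pull-back package and `Tor1 = m59sb_Tor … p 1`);
* **`m59sb_eq2odd_of_cells`** : the same three cells give box B (odd half) of TOP,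
  `m59t_Eq2Odd_stmt`;
* `m59sb_Level3_stmt` : LEVEL 3 as one statement: for every pull-back package `P` there is an abstract
  frame (`m59sb_Frame`: `A1`, `A2`, `Lam`, `t1`, `t2`, `Tor`, `σ₀`) with `pa, pb` those of `P`, with
  `Tor n = m59sb_Tor … p n`, whose five level-3 cells [TAME-GEN], (G3), (F4), [MASS-ineq], (G4) hold;
  **`m59sb_torSurj_of_level3 : m59sb_Level3_stmt → m59sb_TorSurj_stmt`** (Lemma 1 + Lemma 2,
  `m59sb_torSurj_of_frame`).

`q = 2` (Hesse vocabulary): the leaf is `m59sb_CoreTwo_stmt` (SinkB/Seams.lean) until the Hesse twin of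
`SinkB/Defs.lean` exists; `m59sb_eq2two_of` gives `m59t_Eq2Two_stmt`.
-/
import Mathlib
import Fermat.Agent.M59.SinkB.Seams
import Fermat.Agent.M59.SinkB.Frame
import Fermat.Agent.M59.SinkB.Defs

set_option autoImplicit false
set_option linter.unusedSectionVars false
set_option linter.unusedVariables false
set_option linter.unusedTactic false
set_option linter.unreachableTactic false
set_option synthInstance.maxHeartbeats 400000
set_option maxHeartbeats 1000000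

noncomputable section

namespace Fermat.Agent.M59

open Fermat.Agent.JT3 ModularCurve

local notation "Qb" => AlgebraicClosure ℚ

/-- **LEVEL 2 ⟹ LEVEL 1, odd `q`.** -/
theorem m59sb_coreOdd_of_cells (hPull : m59sb_Pull_stmt) (hG : m59sb_G12_stmt)
    (hTS : m59sb_TorSurj_stmt) : m59sb_CoreOdd_stmt := by
  intro N' q p _ _ _ hq hp2 hqp hq2ne hqN' h4 A hA S a hpS hnE z hz0 hpz hzfix hzeig
  haveI : Fact q.Prime := ⟨hq⟩
  have hq2 : ¬ 2 ∣ q := fun h => hq2ne ((Nat.prime_dvd_prime_iff_eq Nat.prime_two hq).mp h).symm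
  obtain ⟨P⟩ := hPull N' q hq
  refine m59sb_wire_core (A := A) P.pa P.pb (m59sb_Tor A N' q hq2 hqN' p 1) ?_ ?_ ?_ S a hpS hnE z
    hz0 hpz hzfix hzeig
  · intro ℓ hℓ hℓN x hx
    -- robust to the two shapes of `pa_hecke`, `pb_hecke` (all classes / torsion classes only)
    have hx' : ∃ n : ℕ, n ≠ 0 ∧ n • x = 0 := by
      obtain ⟨n, hn⟩ := hx
      exact ⟨p ^ n, pow_ne_zero n (Fact.out : p.Prime).ne_zero, hn⟩
    constructor
    · first
        | exact (P.pa_hecke ℓ hℓ hℓN x).symm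
        | exact (P.pa_hecke ℓ hℓ hℓN x hx').symm
    · first
        | exact (P.pb_hecke ℓ hℓ hℓN x).symm
        | exact (P.pb_hecke ℓ hℓ hℓN x hx').symm
  · intro S a hpS hnE z hz0 hpz hzfix hzeig
    rcases hG N' q p hp2 hqp hq2 hqN' h4 A hA S a hpS hnE z hz0 hpz hzfix hzeig with hT | hmid
    · left
      refine ⟨by rw [pow_one]; exact hpz, hzfix, ?_⟩
      rw [pow_one]
      exact hT
    · right
      left
      obtain ⟨z', hz'0, hpz', hz'eig⟩ := hmid
      exact ⟨z', hz'0, hpz', fun ℓ hℓ hℓN hℓS =>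
        hz'eig ℓ hℓ (fun h => hℓN (dvd_mul_of_dvd_left h q)) hℓS⟩
  · exact hTS N' q p hp2 hqp hq2 hqN' h4 A hA P

/-- **Box B of TOP, odd half, from the three level-2 cells.** -/
theorem m59sb_eq2odd_of_cells (hPull : m59sb_Pull_stmt) (hG : m59sb_G12_stmt)
    (hTS : m59sb_TorSurj_stmt) : m59t_Eq2Odd_stmt :=
  m59sb_eq2odd_of (m59sb_coreOdd_of_cells hPull hG hTS)

/-- **LEVEL 3 of Sink B (odd `q`) as one statement**: an abstract frame on the concrete `pa`, `pb`,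
`Tor` whose five level-3 cells hold. -/
def m59sb_Level3_stmt : Prop :=
  ∀ (N' q p : ℕ) [NeZero N'] [NeZero q] [Fact q.Prime] [NeZero (N' * q)] [NeZero (N' * q * q)]
    [Fact p.Prime],
    p ≠ 2 → q ≠ p → ∀ (hq2 : ¬ 2 ∣ q) (hqN' : ¬ q ∣ N'), 4 ∣ N' →
    ∀ A : ValuationSubring Qb, A.LiesOverPrime q → ∀ P : m59sb_Pull N' q,
      ∃ (A1 A2 : Type) (_ : AddCommGroup A1) (_ : AddCommGroup A2) (Fr : m59sb_Frame N' q A1 A2),
        Fr.pa = P.pa ∧ Fr.pb = P.pb ∧ (∀ n, Fr.Tor n = m59sb_Tor A N' q hq2 hqN' p n) ∧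
        m59sb_TameGen p A Fr ∧ m59sb_Tor3 p Fr ∧ m59sb_Tau1 p A Fr ∧ m59sb_Mass N' q p A1 ∧
          m59sb_PullTor p A Fr

/-- **LEVEL 3 ⟹ [TOR-SURJ].** -/
theorem m59sb_torSurj_of_level3 (h : m59sb_Level3_stmt) : m59sb_TorSurj_stmt := by
  intro N' q p _ _ hqF _ _ _ hp2 hqp hq2 hqN' h4 A hA P z hz
  obtain ⟨A1, A2, _, _, Fr, hpa, hpb, hTor, hG, h3, hT, hM, hPull⟩ :=
    h N' q p hp2 hqp hq2 hqN' h4 A hA P
  have hz' : z ∈ Fr.Tor 1 := by rw [hTor 1]; exact hz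
  obtain ⟨k, x, y, hx, hy, hzxy⟩ :=
    m59sb_torSurj_of_frame Fr hqF.out hqp hqN' hA hG h3 hT hM hPull z hz'
  exact ⟨k, x, y, hx, hy, by rw [hzxy, hpa, hpb]⟩

/-- **Box B of TOP, odd half, from level 2 with [TOR-SURJ] cut at level 3.** -/
theorem m59sb_eq2odd_of_level3 (hPull : m59sb_Pull_stmt) (hG : m59sb_G12_stmt)
    (h3 : m59sb_Level3_stmt) : m59t_Eq2Odd_stmt :=
  m59sb_eq2odd_of_cells hPull hG (m59sb_torSurj_of_level3 h3)

end Fermat.Agent.M59
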