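/-
M59 / Sink B (architect helper15): THE WIRING OF THE LEVELS, ISSUE 2.  Prefix `m59sb_`.

Two changes with respect to `SinkB/Wire.lean` (which stays valid):

* (G12) now has the THREE-WAY conclusion of helper1's `m59sb_G12c_stmt` (SinkB/G12/Seams.lean):
  toric class ∨ eigenclass of `J₀(N' q)[p]` ∨ eigen-CHARACTER of level `N'` (`m59sb_LowChar`, the
  δ-exit; its exit to `R(N' q)` is helper1's `m59g12_exit_lowChar`);
* [PULL-API] is CLOSED (`SinkB/PullApi/Main.lean`): the pull-backs are the concrete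
  `m59pl_pa (N' * q) q`, `m59pl_pb (N' * q) q`; no `m59sb_Pull_stmt` hypothesis any more.

HEADLINES
* `m59sb_TorSurjPl_stmt` : [TOR-SURJ] for the concrete pull-backs;
* **`m59sb_eq2odd_of_cells_c : m59sb_G12c_stmt → m59sb_TorSurjPl_stmt → m59t_Eq2Odd_stmt`**
  (box B of TOP, odd half, from TWO leaves);
* `m59sb_Level3Pl_stmt` (an abstract frame on the concrete `pa`, `pb`, `Tor` whose five level-3
  cells hold), `m59sb_torSurjPl_of_level3`, **`m59sb_eq2odd_of_level3_c`**;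
* `m59sb_torSurjPl_of_torSurj` : the `Pl` form follows from helper1's `m59sb_TorSurj_stmt` as soon as
  a `m59sb_Pull N' q` with the concrete maps exists.
-/
import Mathlib
import Fermat.Agent.M59.SinkB.Wire
import Fermat.Agent.M59.SinkB.PullApi.Main
import Fermat.Agent.M59.SinkB.G12.Seams
import Fermat.Agent.M59.SinkB.G12.Exit

set_option autoImplicit false
set_option linter.unusedSectionVars false
set_option linter.unusedVariables false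
set_option linter.unusedTactic false
set_option linter.unreachableTactic false
set_option synthInstance.maxHeartbeats 400000
set_option maxHeartbeats 1000000

noncomputable section

namespace Fermat.Agent.M59

open Fermat.Agent.JT3 Fermat.Agent.S58 Fermat.Agent.S44 Fermat.Agent.LR Fermat.Agent.S13 ModularCurve

local notation "Qb" => AlgebraicClosure ℚ

/-- **(E-q²) at `(N', q, p)`, three-way conclusion**: an eigenclass of `J₀(N' q)[p]`, or one of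
`J₀(N')[p]`, or an eigen-character of level `N'`. -/
def m59sb_CoreAtC (N' q p : ℕ) [NeZero N'] [NeZero q] [Fact p.Prime] : Prop :=
  ∀ A : ValuationSubring Qb, A.LiesOverPrime q →
    ∀ (S : Finset ℕ) (a : ℕ → ℤ), p ∈ S →
      (∃ ℓ₀ : ℕ, ℓ₀.Prime ∧ ¬ ℓ₀ ∣ N' * q * q ∧ ℓ₀ ∉ S ∧ ¬ (p : ℤ) ∣ (ℓ₀ : ℤ) + 1 - a ℓ₀) →
      ∀ z : JZero (N' * q * q), z ≠ 0 → p • z = 0 →
        (∀ σ ∈ A.inertiaSubgroupIn ℚ, σ • z = z) →
        (∀ (ℓ : ℕ) (hℓ : ℓ.Prime), ¬ ℓ ∣ N' * q * q → ℓ ∉ S →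
          heckeOperatorBar (N' * q * q) ⟨ℓ, hℓ⟩ z = a ℓ • z) →
        (∃ z' : JZero (N' * q), z' ≠ 0 ∧ p • z' = 0 ∧
          ∀ (ℓ : ℕ) (hℓ : ℓ.Prime), ¬ ℓ ∣ N' * q * q → ℓ ∉ S →
            heckeOperatorBar (N' * q) ⟨ℓ, hℓ⟩ z' = a ℓ • z') ∨
        (∃ z₀ : JZero N', z₀ ≠ 0 ∧ p • z₀ = 0 ∧
          ∀ (ℓ : ℕ) (hℓ : ℓ.Prime), ¬ ℓ ∣ N' * q → ℓ ∉ S →
            heckeOperatorBar N' ⟨ℓ, hℓ⟩ z₀ = a ℓ • z₀) ∨
        m59sb_LowChar N' q p S a

/-- **(E-q²), `q` odd, rigid levels `4 ∣ N'`, three-way conclusion.** -/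
def m59sb_CoreOddC_stmt : Prop :=
  ∀ (N' q p : ℕ) [NeZero N'] [NeZero q] [Fact p.Prime], q.Prime → p ≠ 2 → q ≠ p → q ≠ 2 →
    ¬ q ∣ N' → 4 ∣ N' → m59sb_CoreAtC N' q p

/-- **one step of (E-q²)** from the three-way core at `(N', q, p)`: `R(N' q q) ⟹ R(N' q)`. -/
theorem m59sb_step_atC (p : ℕ) (hp35 : p = 3 ∨ p = 5)
    (W : WeierstrassCurve ℤ) (hΔ : W.Δ ≠ 0) (hW : W.IsSemistableModel)
    (hirr : W.ModRepIsIrreducible p) (N' q : ℕ) [NeZero N'] [NeZero q] [Fact p.Prime]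
    (hq : q.Prime) (hqp : q ≠ p) (hC : m59sb_CoreAtC N' q p)
    (hR : W.IsResiduallyModularOfLevel p (N' * q * q)) :
    W.IsResiduallyModularOfLevel p (N' * q) := by
  classical
  have hp : p.Prime := by rcases hp35 with rfl | rfl <;> norm_num
  have hp2 : p ≠ 2 := by rcases hp35 with rfl | rfl <;> norm_num
  obtain ⟨A, hA⟩ := g1_exists_liesOver q hq
  obtain ⟨z, hz0, hpz, hzfix, hzeig⟩ :=
    m59sb_entry W hΔ hW hp hp2 hirr (N' * q * q) hR hq hqp A hA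
  set S : Finset ℕ :=
    insert p ((N' * q * q).primeFactors ∪ W.Δ.natAbs.primeFactors) with hS
  have hpS : p ∈ S := Finset.mem_insert_self _ _
  have hM0 : N' * q * q ≠ 0 := NeZero.ne _
  have hNS : ∀ r : ℕ, r.Prime → r ∣ N' * q * q → r ∈ S := fun r hr hrN =>
    Finset.mem_insert_of_mem (Finset.mem_union_left _ (Nat.mem_primeFactors.mpr ⟨hr, hrN, hM0⟩))
  have hSgood : ∀ ℓ : ℕ, ℓ.Prime → W.IsGoodPrimeFor ℓ → ¬ ℓ ∣ N' * q → ℓ ≠ p → ℓ ∉ S := by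
    intro ℓ hℓ hgood hℓM hℓp hℓS
    rcases Finset.mem_insert.mp hℓS with h | h
    · exact hℓp h
    · rcases Finset.mem_union.mp h with h | h
      · have h1 : ℓ ∣ N' * q * q := Nat.dvd_of_mem_primeFactors h
        rcases (Nat.Prime.dvd_mul hℓ).mp h1 with h2 | h2
        · exact hℓM h2
        · exact hℓM (dvd_mul_of_dvd_right h2 N')
      · exact hgood (Int.natCast_dvd.mpr (Nat.dvd_of_mem_primeFactors h))
  obtain ⟨ℓ₀, hℓ₀, hℓ₀g, hℓ₀S, hℓ₀p, hℓ₀e⟩ := lrv_exists_nonEis_prime W hΔ hp hp2 hirr S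
  rcases hC A hA S (fun ℓ => W.apOfModel ℓ) hpS
    ⟨ℓ₀, hℓ₀, fun h => hℓ₀S (hNS ℓ₀ hℓ₀ h), hℓ₀S, hℓ₀e⟩ z hz0 hpz hzfix hzeig with
    ⟨z', hz'0, hpz', hz'eig⟩ | ⟨z₀, hz₀0, hpz₀, hz₀eig⟩ | hlow
  · refine m59sb_exit W hp (N' * q) S hSgood z' hz'0 hpz' (fun ℓ hℓ hℓM hℓS => ?_)
    refine hz'eig ℓ hℓ (fun h => ?_) hℓS
    rcases (Nat.Prime.dvd_mul hℓ).mp h with h2 | h2
    · exact hℓM h2
    · exact hℓM (dvd_mul_of_dvd_right h2 N')
  · exact m59sb_exit_low W hp N' q hq.ne_zero S hSgood z₀ hz₀0 hpz₀ hz₀eig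
  · exact m59g12_exit_lowChar W hp N' q hq.ne_zero S hSgood hlow

/-- **Box B, odd `q` (`m59t_Eq2Odd_stmt`), from its three-way core.** -/
theorem m59sb_eq2odd_ofC (hC : m59sb_CoreOddC_stmt) : m59t_Eq2Odd_stmt := by
  intro p hp35 W hΔ hW hirr M q hM hq hqp hq2ne hq2 hq3 h4 h8 hR
  have hp : p.Prime := by rcases hp35 with rfl | rfl <;> norm_num
  have hp2 : p ≠ 2 := by rcases hp35 with rfl | rfl <;> norm_num
  obtain ⟨N', rfl⟩ : ∃ N' : ℕ, M = N' * q * q := by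
    obtain ⟨c, rfl⟩ := hq2
    exact ⟨c, by ring⟩
  have hN'0 : N' ≠ 0 := by
    rintro rfl
    simp at hM
  have hqN' : ¬ q ∣ N' := by
    rintro ⟨c, rfl⟩
    exact hq3 ⟨c, by ring⟩
  have hdiv : N' * q * q / q = N' * q := Nat.mul_div_cancel _ hq.pos
  rw [hdiv]
  have hrig : 4 ∣ N' := by
    have h4' : 4 ∣ N' * (q * q) := by rw [← mul_assoc]; exact h4
    have hodd : ¬ 2 ∣ q := fun h => hq2ne ((Nat.prime_dvd_prime_iff_eq Nat.prime_two hq).mp h).symm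
    have hcop : Nat.Coprime 4 (q * q) := by
      have h2q : Nat.Coprime 2 q := (Nat.Prime.coprime_iff_not_dvd Nat.prime_two).mpr hodd
      have : Nat.Coprime (2 ^ 2) (q * q) := Nat.Coprime.pow_left 2 (Nat.Coprime.mul_right h2q h2q)
      simpa using this
    exact hcop.dvd_of_dvd_mul_right h4'
  haveI : Fact p.Prime := ⟨hp⟩
  haveI : NeZero N' := ⟨hN'0⟩
  haveI : NeZero q := ⟨hq.ne_zero⟩
  exact m59sb_step_atC p hp35 W hΔ hW hirr N' q hq hqp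
    (hC N' q p hq hp2 hqp hq2ne hqN' hrig) hR

/-- **[TOR-SURJ] for the concrete pull-backs** `m59pl_pa`, `m59pl_pb`: an `I_A`-fixed toric class of
exponent `p` at level `N' q q` is `α^* u + β^* v` with `u, v` of `p`-power order. -/
def m59sb_TorSurjPl_stmt : Prop :=
  ∀ (N' q p : ℕ) [NeZero N'] [NeZero q] [Fact q.Prime] [NeZero (N' * q)] [NeZero (N' * q * q)]
    [Fact p.Prime],
    p ≠ 2 → q ≠ p → ∀ (hq2 : ¬ 2 ∣ q) (hqN' : ¬ q ∣ N'), 4 ∣ N' →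
    ∀ A : ValuationSubring Qb, A.LiesOverPrime q →
      ∀ z ∈ m59sb_Tor A N' q hq2 hqN' p 1,
        ∃ (k : ℕ) (u v : JZero (N' * q)), (p ^ k) • u = 0 ∧ (p ^ k) • v = 0 ∧
          z = m59pl_pa (N' * q) q u + m59pl_pb (N' * q) q v

/-- **LEVEL 2 ⟹ LEVEL 1, odd `q`, issue 2.** -/
theorem m59sb_coreOddC_of_cells (hG : m59sb_G12c_stmt) (hTS : m59sb_TorSurjPl_stmt) :
    m59sb_CoreOddC_stmt := by
  intro N' q p _ _ _ hq hp2 hqp hq2ne hqN' h4 A hA S a hpS hnE z hz0 hpz hzfix hzeig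
  haveI : Fact q.Prime := ⟨hq⟩
  haveI : NeZero (N' * q) := ⟨Nat.mul_ne_zero (NeZero.ne N') (NeZero.ne q)⟩
  haveI : NeZero (N' * q * q) := ⟨Nat.mul_ne_zero (NeZero.ne (N' * q)) (NeZero.ne q)⟩
  have hq2 : ¬ 2 ∣ q := fun h => hq2ne ((Nat.prime_dvd_prime_iff_eq Nat.prime_two hq).mp h).symm
  rcases hG N' q p hp2 hqp hq2 hqN' h4 A hA S a hpS hnE z hz0 hpz hzfix hzeig with
    hT | hmid | hlow
  · left
    have hzT : z ∈ m59sb_Tor A N' q hq2 hqN' p 1 := by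
      refine ⟨by rw [pow_one]; exact hpz, hzfix, ?_⟩
      rw [pow_one]
      exact hT
    obtain ⟨k, x, y, hx, hy, hzxy⟩ := hTS N' q p hp2 hqp hq2 hqN' h4 A hA z hzT
    exact m59sb_wire_entry (m59pl_pa (N' * q) q) (m59pl_pb (N' * q) q) (m59pl_pullApiOf N' q p) S a z hz0 hpz
      hzeig k x y hx hy hzxy
  · left
    obtain ⟨z', hz'0, hpz', hz'eig⟩ := hmid
    exact ⟨z', hz'0, hpz', fun ℓ hℓ hℓN hℓS =>
      hz'eig ℓ hℓ (fun h => hℓN (dvd_mul_of_dvd_left h q)) hℓS⟩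
  · exact Or.inr (Or.inr hlow)

/-- **Box B of TOP, odd half, from the TWO level-2 leaves** ((G12) three-way and [TOR-SURJ]). -/
theorem m59sb_eq2odd_of_cells_c (hG : m59sb_G12c_stmt) (hTS : m59sb_TorSurjPl_stmt) :
    m59t_Eq2Odd_stmt :=
  m59sb_eq2odd_ofC (m59sb_coreOddC_of_cells hG hTS)

/-- **LEVEL 3 of Sink B (odd `q`) as one statement, on the concrete pull-backs**: an abstract frame
on `m59pl_pa`, `m59pl_pb`, `m59sb_Tor` whose five level-3 cells hold. -/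
def m59sb_Level3Pl_stmt : Prop :=
  ∀ (N' q p : ℕ) [NeZero N'] [NeZero q] [Fact q.Prime] [NeZero (N' * q)] [NeZero (N' * q * q)]
    [Fact p.Prime],
    p ≠ 2 → q ≠ p → ∀ (hq2 : ¬ 2 ∣ q) (hqN' : ¬ q ∣ N'), 4 ∣ N' →
    ∀ A : ValuationSubring Qb, A.LiesOverPrime q →
      ∃ (A1 A2 : Type) (_ : AddCommGroup A1) (_ : AddCommGroup A2) (Fr : m59sb_Frame N' q A1 A2),
        Fr.pa = m59pl_pa (N' * q) q ∧ Fr.pb = m59pl_pb (N' * q) q ∧
        (∀ n, Fr.Tor n = m59sb_Tor A N' q hq2 hqN' p n) ∧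
        m59sb_TameGen p A Fr ∧ m59sb_Tor3 p Fr ∧ m59sb_Tau1 p A Fr ∧ m59sb_Mass N' q p A1 ∧
          m59sb_PullTor p A Fr

/-- **LEVEL 3 ⟹ [TOR-SURJ]** (concrete pull-backs). -/
theorem m59sb_torSurjPl_of_level3 (h : m59sb_Level3Pl_stmt) : m59sb_TorSurjPl_stmt := by
  intro N' q p _ _ hqF _ _ _ hp2 hqp hq2 hqN' h4 A hA z hz
  obtain ⟨A1, A2, _, _, Fr, hpa, hpb, hTor, hG, h3, hT, hM, hPull⟩ :=
    h N' q p hp2 hqp hq2 hqN' h4 A hA
  have hz' : z ∈ Fr.Tor 1 := by rw [hTor 1]; exact hz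
  obtain ⟨k, x, y, hx, hy, hzxy⟩ :=
    m59sb_torSurj_of_frame Fr hqF.out hqp hqN' hA hG h3 hT hM hPull z hz'
  exact ⟨k, x, y, hx, hy, by rw [hzxy, hpa, hpb]⟩

/-- **Box B of TOP, odd half, from (G12) three-way and LEVEL 3.** -/
theorem m59sb_eq2odd_of_level3_c (hG : m59sb_G12c_stmt) (h3 : m59sb_Level3Pl_stmt) :
    m59t_Eq2Odd_stmt :=
  m59sb_eq2odd_of_cells_c hG (m59sb_torSurjPl_of_level3 h3)

/-- the `Pl` form of [TOR-SURJ] from helper1's `m59sb_TorSurj_stmt`, given pull-back packages on the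
concrete maps. -/
theorem m59sb_torSurjPl_of_torSurj (hTS : m59sb_TorSurj_stmt)
    (hP : ∀ (N' q : ℕ) [NeZero N'] [NeZero q] [NeZero (N' * q)] [NeZero (N' * q * q)], q.Prime →
      ∃ P : m59sb_Pull N' q, P.pa = m59pl_pa (N' * q) q ∧ P.pb = m59pl_pb (N' * q) q) :
    m59sb_TorSurjPl_stmt := by
  intro N' q p _ _ hqF _ _ _ hp2 hqp hq2 hqN' h4 A hA z hz
  obtain ⟨P, hpa, hpb⟩ := hP N' q hqF.out
  obtain ⟨k, u, v, hu, hv, hzuv⟩ := hTS N' q p hp2 hqp hq2 hqN' h4 A hA P z hz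
  exact ⟨k, u, v, hu, hv, by rw [hzuv, hpa, hpb]⟩

end Fermat.Agent.M59
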