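/-
M59 / Sink B, cell (G3), [GLUE] half (helper3; prefix `m59sbg_`).  Sharp [GLUE] clause at a triple point, injective form:
if the toric datum of `f` at the point is the coboundary of the constants `κ`, then the local
hypothesis of `sfc_main` holds for `(f · u₀ᵐ) ^ (q²)` — exponent of `f` is ONE (no `q² - 1`).
-/
import Mathlib
import Fermat.Agent.S36.Glue.Tri

set_option autoImplicit false
set_option linter.unusedSectionVars false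

namespace Fermat.Agent.M59

open Fermat.Agent.SS Fermat.Agent.S36

universe v

variable {A0 : Type*} [CommRing A0] {F0 : Type v} [Field F0] [Algebra A0 F0]
variable {B : Subalgebra A0 F0} [IsFractionRing B F0] [IsNoetherianRing B] [IsIntegrallyClosed B]

/-- **sharp triple-point clause, existential form**: a local datum of `f` whose branch values,
corrected by the constants `κ j`, agree at the point. -/
theorem m59sbg_hloc_tri_sharp (π : A0) (hϖ0 : algebraMap A0 F0 π ≠ 0) (𝔫 : Ideal B) [h𝔫 : 𝔫.IsPrime]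
    (hπ𝔫 : algebraMap A0 B π ∈ 𝔫) [UniqueFactorizationMonoid (ssl_locSub F0 𝔫)]
    (p : ℕ) (hq : (p + 1).Prime)
    (hqπ : algebraMap B (ssl_locSub F0 𝔫) (algebraMap A0 B π) ∣ ((p + 1 : ℕ) : ssl_locSub F0 𝔫))
    (u : Fin 3 → ssl_locSub F0 𝔫) (e : Fin 3 → ℕ) (he0 : e 0 = 1) (he1 : e 1 = 1)
    (he2 : e 2 = p) (hu : ∀ j, Prime (u j))
    (hna : ∀ i j, i ≠ j → ¬ Associated (u i) (u j))
    (hπ : Associated (algebraMap B (ssl_locSub F0 𝔫) (algebraMap A0 B π)) (∏ j, u j ^ e j))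
    (htr : ∀ i j, i ≠ j →
      𝔫.map (algebraMap B (ssl_locSub F0 𝔫)) ≤ Ideal.span {u i} ⊔ Ideal.span {u j})
    (m : ℕ) (hm : 0 < m) {f : F0}
    {u₀ : F0} (hu₀ : ∀ j, ssl_UnitAt F0 (Ideal.span {u j}) u₀) (κ : Fin 3 → ssl_locSub F0 𝔫)
    (hκ : ∀ j, s36g_MemM (Ideal.span {u j}) (u₀ - ((κ j : ssl_locSub F0 𝔫) : F0)))
    (ω : (ssl_locSub F0 𝔫)ˣ) (g : F0) (a : Fin 3 → ssl_locSub F0 𝔫)
    (hfg : f = ((ω : ssl_locSub F0 𝔫) : F0) * g ^ m)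
    (hgu : ∀ j, ssl_UnitAt F0 (Ideal.span {u j}) g)
    (hga : ∀ j, s36g_MemM (Ideal.span {u j}) (g - ((a j : ssl_locSub F0 𝔫) : F0)))
    (htor : ∀ j, a j * κ j - a 1 * κ 1 ∈ 𝔫.map (algebraMap B (ssl_locSub F0 𝔫))) :
    ∃ (b1 : B) (h : F0), b1 ∉ 𝔫 ∧ h ^ m * (f * u₀ ^ m) ^ (p + 1) ^ 2 ∈ B ∧
      h - (b1 : F0) ∈ sfc_piO B.toSubring (algebraMap A0 F0 π) := by
  have hprime : ∀ j, (Ideal.span {u j}).IsPrime := fun j =>
    (Ideal.span_singleton_prime (hu j).ne_zero).2 (hu j)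
  obtain ⟨hK, heQ⟩ := s36g_bounds_three p e he0 he1 he2
  have hfg' : f * u₀ ^ m = ((ω : ssl_locSub F0 𝔫) : F0) * (g * u₀) ^ m := by
    rw [hfg]; ring
  refine s36g_hloc π hϖ0 𝔫 hπ𝔫 hq hqπ u e hu hna hπ htr m hm.ne' ω hfg' ?_
    (fun j => a j * κ j) (a 1 * κ 1) ?_ htor 2 hK heQ
  · intro j
    have := hprime j
    exact ssl_unitAt_mul _ (hgu j) (hu₀ j)
  · intro j
    have := hprime j
    have e1 : (((a j * κ j : ssl_locSub F0 𝔫)) : F0) =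
        ((a j : ssl_locSub F0 𝔫) : F0) * ((κ j : ssl_locSub F0 𝔫) : F0) := rfl
    rw [e1]
    exact s36g_memM_mul_sub _ (hga j) (hκ j) (ssl_memAt_algebraMap _ _) (ssl_memAt_algebraMap _ _)

/-- **sharp triple-point clause, universal form**: `f ≡ 1` along the three branches, `m ∣` the
horizontal orders, and EVERY local datum of `f` has branch values which, corrected by the constants
`κ j`, agree at the point (`τ₂ = ∂κ` at this point). -/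
theorem m59sbg_hloc_tri_sharp' (π : A0) (hϖ0 : algebraMap A0 F0 π ≠ 0) (𝔫 : Ideal B) [h𝔫 : 𝔫.IsPrime]
    (hπ𝔫 : algebraMap A0 B π ∈ 𝔫) [UniqueFactorizationMonoid (ssl_locSub F0 𝔫)]
    (p : ℕ) (hq : (p + 1).Prime)
    (hqπ : algebraMap B (ssl_locSub F0 𝔫) (algebraMap A0 B π) ∣ ((p + 1 : ℕ) : ssl_locSub F0 𝔫))
    (u : Fin 3 → ssl_locSub F0 𝔫) (e : Fin 3 → ℕ) (he0 : e 0 = 1) (he1 : e 1 = 1)
    (he2 : e 2 = p) (hu : ∀ j, Prime (u j))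
    (hna : ∀ i j, i ≠ j → ¬ Associated (u i) (u j))
    (hπ : Associated (algebraMap B (ssl_locSub F0 𝔫) (algebraMap A0 B π)) (∏ j, u j ^ e j))
    (htr : ∀ i j, i ≠ j →
      𝔫.map (algebraMap B (ssl_locSub F0 𝔫)) ≤ Ideal.span {u i} ⊔ Ideal.span {u j})
    (hsm : ∀ j, IsIntegrallyClosed (ssl_locSub F0 𝔫 ⧸ Ideal.span {u j}))
    (m : ℕ) (hm : 0 < m) {f : F0} (hf : f ≠ 0)
    (hdiv : ∀ 𝔮 : Ideal (ssl_locSub F0 𝔫),
      ssl_Horiz (algebraMap B (ssl_locSub F0 𝔫) (algebraMap A0 B π)) 𝔮 →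
        ∃ G : F0, G ≠ 0 ∧ ssl_UnitAt F0 𝔮 (f / G ^ m))
    (hf1 : ∀ j, s36g_MemM (Ideal.span {u j}) (f - 1))
    {u₀ : F0} (hu₀ : ∀ j, ssl_UnitAt F0 (Ideal.span {u j}) u₀) (κ : Fin 3 → ssl_locSub F0 𝔫)
    (hκ : ∀ j, s36g_MemM (Ideal.span {u j}) (u₀ - ((κ j : ssl_locSub F0 𝔫) : F0)))
    (htor : ∀ (ω : (ssl_locSub F0 𝔫)ˣ) (g : F0) (a : Fin 3 → ssl_locSub F0 𝔫),
      f = ((ω : ssl_locSub F0 𝔫) : F0) * g ^ m →
      (∀ j, ssl_UnitAt F0 (Ideal.span {u j}) g) →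
      (∀ j, s36g_MemM (Ideal.span {u j}) (g - ((a j : ssl_locSub F0 𝔫) : F0))) →
      ∀ j, a j * κ j - a 1 * κ 1 ∈ 𝔫.map (algebraMap B (ssl_locSub F0 𝔫))) :
    ∃ (b1 : B) (h : F0), b1 ∉ 𝔫 ∧ h ^ m * (f * u₀ ^ m) ^ (p + 1) ^ 2 ∈ B ∧
      h - (b1 : F0) ∈ sfc_piO B.toSubring (algebraMap A0 F0 π) := by
  have : IsLocalRing (ssl_locSub F0 𝔫) := ssl_loc_isLocalRing 𝔫
  have : IsNoetherianRing (ssl_locSub F0 𝔫) := ssl_loc_isNoetherianRing 𝔫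
  have : IsIntegrallyClosed (ssl_locSub F0 𝔫) := ssl_loc_isIntegrallyClosed 𝔫
  have hp0 : p ≠ 0 := by
    rintro rfl
    exact Nat.not_prime_one hq
  have he : ∀ j, e j ≠ 0 := by
    intro j
    fin_cases j
    · simp only [Fin.zero_eta]; rw [he0]; exact one_ne_zero
    · simp only [Fin.mk_one]; rw [he1]; exact one_ne_zero
    · simp only [Fin.reduceFinMk]; rw [he2]; exact hp0
  obtain ⟨ω, g, a, hfg, hgu, hga, -⟩ :=
    s36g_local_data (F := F0) _ u e hu he hπ hsm m hm hf hdiv hf1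
  exact m59sbg_hloc_tri_sharp π hϖ0 𝔫 hπ𝔫 p hq hqπ u e he0 he1 he2 hu hna hπ htr m hm hu₀ κ hκ
    ω g a hfg hgu hga (htor ω g a hfg hgu hga)

end Fermat.Agent.M59

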